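import Fermat.Agent.S14.Thaine.ZetaBounds.EulerFactor

/-!
# Route T / ZetaBounds: Euler product over prime ideals
(block owner helper20; one worker; statement frozen)

Plan (mimic `Mathlib/NumberTheory/EulerProduct/Basic.lean`, which does the case of `ℕ`).
`HasProd g a` unfolds to `Tendsto (fun T : Finset _ => ∏ v ∈ T, g v) atTop (𝓝 a)`.
1. `‖f v‖ < 1` for every prime `v` (else `k ↦ ‖f (v^k)‖ = ‖f v‖^k` is not summable; `k ↦ v^k`
   is injective), so `∑_k f(v)^k = (1 - f v)⁻¹`.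
2. Unique factorisation at one prime: every nonzero ideal `I` is uniquely `v^k * J` with `¬ v ∣ J`:
   this is `bijective_pow_mul` of `EulerFactor.lean` (another worker proves it; use it, together
   with `exists_prime_dvd` and `dvd_pow_mul_iff`, as black boxes).
3. For a finite set `T` of primes put `c_T I := if (∀ v ∈ T, ¬ v.asIdeal ∣ I) then f I else 0`
   ("`I` prime to `T`").  By 2 (transfer along `(k, J) ↦ v^k * J`, e.g. with
   `hasSum_iff_hasSum_of_ne_zero_bij`, and a product of two absolutely convergent series,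
   `HasSum.mul`/`summable_mul_of_summable_norm`): `∑ c_T = (1 - f v)⁻¹ * ∑ c_(insert v T)` for
   `v ∉ T`; by induction `∑ c_T = (∏ v ∈ T, (1 - f v)) * ∑_I f I`.
4. `∑ c_T → f 1 = 1` along `atTop` (dominated convergence `tendsto_tsum_of_dominated_convergence`
   with bound `‖f I‖`: every `I ≠ ⊤` is divisible by some prime `v`, so `c_T I = 0` as soon as
   `v ∈ T`).  Hence `∑_I f I ≠ 0` and `∏ v ∈ T, (1 - f v)⁻¹ → ∑_I f I`.
(Equivalent alternative: work with ideals all of whose prime factors are in `T`.)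

Implementation note: step 3 is done in the "sieve" form
`∑ c_(insert v T) = ∑ c_T - ∑_{v ∣ I} c_T I = (1 - f v) * ∑ c_T` (reindex the multiples of `v` by
`J ↦ v * J`), which only needs `exists_prime_dvd` and `dvd_pow_mul_iff` (with `k = 1`) and no
inverses; steps 1 and 2 are then not needed.
-/

set_option autoImplicit false

namespace Fermat.Agent.S14.Thaine.ZetaBounds

open NumberField
open scoped nonZeroDivisors

namespace Euler

open IsDedekindDomain Filter Topology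

variable (K : Type*) [Field K]

/-- "`I` is prime to `T`". -/
def PrimeTo (T : Finset (HeightOneSpectrum (𝓞 K))) (I : (Ideal (𝓞 K))⁰) : Prop :=
  ∀ v ∈ T, ¬ v.asIdeal ∣ (I : Ideal (𝓞 K))

open Classical in
/-- The function `f` restricted to the ideals prime to `T` (and `0` elsewhere). -/
noncomputable def sieve (f : (Ideal (𝓞 K))⁰ →* ℂ) (T : Finset (HeightOneSpectrum (𝓞 K)))
    (I : (Ideal (𝓞 K))⁰) : ℂ :=
  if PrimeTo K T I then f I else 0

open Classical in
/-- The part of `sieve K f T` supported on the multiples of `v`. -/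
noncomputable def sieveDvd (f : (Ideal (𝓞 K))⁰ →* ℂ) (T : Finset (HeightOneSpectrum (𝓞 K)))
    (v : HeightOneSpectrum (𝓞 K)) (I : (Ideal (𝓞 K))⁰) : ℂ :=
  if v.asIdeal ∣ (I : Ideal (𝓞 K)) then sieve K f T I else 0

variable {K}

theorem norm_sieve_le (f : (Ideal (𝓞 K))⁰ →* ℂ) (T : Finset (HeightOneSpectrum (𝓞 K)))
    (I : (Ideal (𝓞 K))⁰) : ‖sieve K f T I‖ ≤ ‖f I‖ := by
  unfold sieve
  split_ifs
  · exact le_rfl
  · rw [norm_zero]
    exact norm_nonneg _

theorem norm_sieveDvd_le (f : (Ideal (𝓞 K))⁰ →* ℂ) (T : Finset (HeightOneSpectrum (𝓞 K)))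
    (v : HeightOneSpectrum (𝓞 K)) (I : (Ideal (𝓞 K))⁰) : ‖sieveDvd K f T v I‖ ≤ ‖f I‖ := by
  unfold sieveDvd
  split_ifs
  · exact norm_sieve_le f T I
  · rw [norm_zero]
    exact norm_nonneg _

theorem summable_sieve {f : (Ideal (𝓞 K))⁰ →* ℂ}
    (hsum : Summable (fun I : (Ideal (𝓞 K))⁰ => ‖f I‖)) (T : Finset (HeightOneSpectrum (𝓞 K))) :
    Summable (sieve K f T) :=
  Summable.of_norm_bounded hsum (norm_sieve_le f T)

theorem summable_sieveDvd {f : (Ideal (𝓞 K))⁰ →* ℂ}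
    (hsum : Summable (fun I : (Ideal (𝓞 K))⁰ => ‖f I‖)) (T : Finset (HeightOneSpectrum (𝓞 K)))
    (v : HeightOneSpectrum (𝓞 K)) : Summable (sieveDvd K f T v) :=
  Summable.of_norm_bounded hsum (norm_sieveDvd_le f T v)

theorem sieve_empty (f : (Ideal (𝓞 K))⁰ →* ℂ) (I : (Ideal (𝓞 K))⁰) : sieve K f ∅ I = f I := by
  unfold sieve
  rw [if_pos]
  intro v hv
  exact absurd hv (Finset.notMem_empty v)

theorem primeTo_insert [DecidableEq (HeightOneSpectrum (𝓞 K))]
    (T : Finset (HeightOneSpectrum (𝓞 K))) (v : HeightOneSpectrum (𝓞 K))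
    (I : (Ideal (𝓞 K))⁰) :
    PrimeTo K (insert v T) I ↔ ¬ v.asIdeal ∣ (I : Ideal (𝓞 K)) ∧ PrimeTo K T I := by
  unfold PrimeTo
  rw [Finset.forall_mem_insert]

theorem sieve_insert [DecidableEq (HeightOneSpectrum (𝓞 K))] (f : (Ideal (𝓞 K))⁰ →* ℂ)
    (T : Finset (HeightOneSpectrum (𝓞 K))) (v : HeightOneSpectrum (𝓞 K))
    (I : (Ideal (𝓞 K))⁰) :
    sieve K f (insert v T) I = sieve K f T I - sieveDvd K f T v I := by
  unfold sieveDvd
  by_cases hv : v.asIdeal ∣ (I : Ideal (𝓞 K))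
  · rw [if_pos hv, sub_self]
    unfold sieve
    rw [if_neg]
    rw [primeTo_insert]
    exact fun h => h.1 hv
  · rw [if_neg hv, sub_zero]
    unfold sieve
    by_cases hT : PrimeTo K T I
    · rw [if_pos hT, if_pos ((primeTo_insert T v I).mpr ⟨hv, hT⟩)]
    · rw [if_neg hT, if_neg (fun h => hT ((primeTo_insert T v I).mp h).2)]

theorem primeTo_mul [NumberField K] {T : Finset (HeightOneSpectrum (𝓞 K))} {v : HeightOneSpectrum (𝓞 K)}
    (hv : v ∉ T) (J : (Ideal (𝓞 K))⁰) : PrimeTo K T (primeNZD K v * J) ↔ PrimeTo K T J := by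
  unfold PrimeTo
  refine forall₂_congr fun w hw => ?_
  have hwv : w ≠ v := fun h => hv (h ▸ hw)
  have h := dvd_pow_mul_iff K hwv 1 J
  rw [pow_one] at h
  rw [h]

theorem sieve_mul [NumberField K] (f : (Ideal (𝓞 K))⁰ →* ℂ) {T : Finset (HeightOneSpectrum (𝓞 K))}
    {v : HeightOneSpectrum (𝓞 K)} (hv : v ∉ T) (J : (Ideal (𝓞 K))⁰) :
    sieve K f T (primeNZD K v * J) = f (primeNZD K v) * sieve K f T J := by
  unfold sieve
  by_cases hT : PrimeTo K T J
  · rw [if_pos hT, if_pos ((primeTo_mul hv J).mpr hT), map_mul]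
  · rw [if_neg hT, if_neg (fun h => hT ((primeTo_mul hv J).mp h)), mul_zero]

theorem dvd_primeNZD_mul (v : HeightOneSpectrum (𝓞 K)) (J : (Ideal (𝓞 K))⁰) :
    v.asIdeal ∣ ((primeNZD K v * J : (Ideal (𝓞 K))⁰) : Ideal (𝓞 K)) :=
  Dvd.intro (J : Ideal (𝓞 K)) rfl

theorem sieveDvd_mul [NumberField K] (f : (Ideal (𝓞 K))⁰ →* ℂ) {T : Finset (HeightOneSpectrum (𝓞 K))}
    {v : HeightOneSpectrum (𝓞 K)} (hv : v ∉ T) (J : (Ideal (𝓞 K))⁰) :
    sieveDvd K f T v (primeNZD K v * J) = f (primeNZD K v) * sieve K f T J := by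
  unfold sieveDvd
  rw [if_pos (dvd_primeNZD_mul v J), sieve_mul f hv J]

theorem primeNZD_mul_injective [NumberField K] (v : HeightOneSpectrum (𝓞 K)) :
    Function.Injective (fun J : (Ideal (𝓞 K))⁰ => primeNZD K v * J) := by
  intro J J' h
  have h' : v.asIdeal * (J : Ideal (𝓞 K)) = v.asIdeal * (J' : Ideal (𝓞 K)) :=
    congrArg Subtype.val h
  exact Subtype.ext (mul_left_cancel₀ v.ne_bot h')

theorem support_sieveDvd_subset (f : (Ideal (𝓞 K))⁰ →* ℂ)
    (T : Finset (HeightOneSpectrum (𝓞 K))) (v : HeightOneSpectrum (𝓞 K)) :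
    Function.support (sieveDvd K f T v) ⊆
      Set.range (fun J : (Ideal (𝓞 K))⁰ => primeNZD K v * J) := by
  intro I hI
  have hdvd : v.asIdeal ∣ (I : Ideal (𝓞 K)) := by
    by_contra hn
    apply hI
    unfold sieveDvd
    rw [if_neg hn]
  obtain ⟨J', hJ'⟩ := hdvd
  have hJ0 : J' ≠ 0 := by
    intro h0
    rw [h0, mul_zero] at hJ'
    exact nonZeroDivisors.coe_ne_zero I hJ'
  exact ⟨⟨J', mem_nonZeroDivisors_of_ne_zero hJ0⟩, Subtype.ext hJ'.symm⟩

theorem tsum_sieveDvd [NumberField K] (f : (Ideal (𝓞 K))⁰ →* ℂ) {T : Finset (HeightOneSpectrum (𝓞 K))}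
    {v : HeightOneSpectrum (𝓞 K)} (hv : v ∉ T) :
    ∑' I, sieveDvd K f T v I = f (primeNZD K v) * ∑' I, sieve K f T I := by
  rw [← (primeNZD_mul_injective v).tsum_eq (support_sieveDvd_subset f T v), ← tsum_mul_left]
  exact tsum_congr fun J => sieveDvd_mul f hv J

theorem tsum_sieve_insert [NumberField K] [DecidableEq (HeightOneSpectrum (𝓞 K))]
    {f : (Ideal (𝓞 K))⁰ →* ℂ}
    (hsum : Summable (fun I : (Ideal (𝓞 K))⁰ => ‖f I‖)) {T : Finset (HeightOneSpectrum (𝓞 K))}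
    {v : HeightOneSpectrum (𝓞 K)} (hv : v ∉ T) :
    ∑' I, sieve K f (insert v T) I = (1 - f (primeNZD K v)) * ∑' I, sieve K f T I := by
  have h : ∑' I, sieve K f (insert v T) I = ∑' I, (sieve K f T I - sieveDvd K f T v I) :=
    tsum_congr fun I => sieve_insert f T v I
  rw [h, (summable_sieve hsum T).tsum_sub (summable_sieveDvd hsum T v), tsum_sieveDvd f hv]
  ring

theorem tsum_sieve [NumberField K] {f : (Ideal (𝓞 K))⁰ →* ℂ}
    (hsum : Summable (fun I : (Ideal (𝓞 K))⁰ => ‖f I‖)) (T : Finset (HeightOneSpectrum (𝓞 K))) :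
    ∑' I, sieve K f T I = (∏ v ∈ T, (1 - f (primeNZD K v))) * ∑' I, f I := by
  classical
  induction T using Finset.induction_on with
  | empty =>
    rw [Finset.prod_empty, one_mul]
    exact tsum_congr fun I => sieve_empty f I
  | insert v T hv ih =>
    rw [tsum_sieve_insert hsum hv, ih, Finset.prod_insert hv, mul_assoc]

theorem primeTo_one (T : Finset (HeightOneSpectrum (𝓞 K))) : PrimeTo K T 1 := by
  intro v _ hdvd
  have h1 : ((1 : (Ideal (𝓞 K))⁰) : Ideal (𝓞 K)) = 1 := rfl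
  rw [h1] at hdvd
  exact v.isPrime.ne_top (Ideal.isUnit_iff.mp (isUnit_of_dvd_one hdvd))

theorem sieve_one (f : (Ideal (𝓞 K))⁰ →* ℂ) (T : Finset (HeightOneSpectrum (𝓞 K))) :
    sieve K f T 1 = 1 := by
  unfold sieve
  rw [if_pos (primeTo_one T), map_one]

theorem sieve_eq_zero (f : (Ideal (𝓞 K))⁰ →* ℂ) {T : Finset (HeightOneSpectrum (𝓞 K))}
    {v : HeightOneSpectrum (𝓞 K)} (hv : v ∈ T) {I : (Ideal (𝓞 K))⁰}
    (hdvd : v.asIdeal ∣ (I : Ideal (𝓞 K))) : sieve K f T I = 0 := by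
  unfold sieve
  rw [if_neg (fun h => h v hv hdvd)]

theorem tendsto_sieve [NumberField K] (f : (Ideal (𝓞 K))⁰ →* ℂ) (I : (Ideal (𝓞 K))⁰) :
    Tendsto (fun T : Finset (HeightOneSpectrum (𝓞 K)) => sieve K f T I) atTop
      (𝓝 (Pi.single (M := fun _ => ℂ) (1 : (Ideal (𝓞 K))⁰) (1 : ℂ) I)) := by
  classical
  by_cases hI : I = 1
  · rw [hI, Pi.single_eq_same]
    exact tendsto_const_nhds.congr fun T => (sieve_one f T).symm
  · rw [Pi.single_eq_of_ne hI]
    obtain ⟨v, hv⟩ := exists_prime_dvd K I hI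
    refine tendsto_const_nhds.congr' ?_
    filter_upwards [eventually_ge_atTop ({v} : Finset (HeightOneSpectrum (𝓞 K)))] with T hT
    exact (sieve_eq_zero f (hT (Finset.mem_singleton_self v)) hv).symm

theorem tendsto_tsum_sieve [NumberField K] {f : (Ideal (𝓞 K))⁰ →* ℂ}
    (hsum : Summable (fun I : (Ideal (𝓞 K))⁰ => ‖f I‖)) :
    Tendsto (fun T : Finset (HeightOneSpectrum (𝓞 K)) => ∑' I, sieve K f T I) atTop (𝓝 1) := by
  classical
  have h := tendsto_tsum_of_dominated_convergence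
    (f := fun (T : Finset (HeightOneSpectrum (𝓞 K))) (I : (Ideal (𝓞 K))⁰) => sieve K f T I)
    (g := Pi.single (M := fun _ => ℂ) (1 : (Ideal (𝓞 K))⁰) (1 : ℂ)) hsum
    (fun I => tendsto_sieve f I) (Eventually.of_forall fun T I => norm_sieve_le f T I)
  rwa [tsum_pi_single] at h

end Euler

/-- (Z3) Euler product for a completely multiplicative function on nonzero integral ideals. -/
theorem ideal_eulerProduct_hasProd (K : Type*) [Field K] [NumberField K]
    (f : (Ideal (𝓞 K))⁰ →* ℂ) (hsum : Summable (fun I : (Ideal (𝓞 K))⁰ => ‖f I‖)) :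
    HasProd (fun v : IsDedekindDomain.HeightOneSpectrum (𝓞 K) => (1 - f (primeNZD K v))⁻¹)
      (∑' I : (Ideal (𝓞 K))⁰, f I) := by
  have h1 : Filter.Tendsto (fun T : Finset (IsDedekindDomain.HeightOneSpectrum (𝓞 K)) =>
      (∏ v ∈ T, (1 - f (primeNZD K v))) * ∑' I : (Ideal (𝓞 K))⁰, f I) Filter.atTop (nhds 1) :=
    (Euler.tendsto_tsum_sieve hsum).congr fun T => Euler.tsum_sieve hsum T
  have hS : (∑' I : (Ideal (𝓞 K))⁰, f I) ≠ 0 := by
    intro h0
    rw [h0] at h1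
    simp only [mul_zero] at h1
    exact zero_ne_one (tendsto_nhds_unique tendsto_const_nhds h1)
  have h2 : Filter.Tendsto (fun T : Finset (IsDedekindDomain.HeightOneSpectrum (𝓞 K)) =>
      ∏ v ∈ T, (1 - f (primeNZD K v))) Filter.atTop
      (nhds (∑' I : (Ideal (𝓞 K))⁰, f I)⁻¹) := by
    have h := h1.mul_const (∑' I : (Ideal (𝓞 K))⁰, f I)⁻¹
    rw [one_mul] at h
    refine h.congr fun T => ?_
    rw [mul_assoc, mul_inv_cancel₀ hS, mul_one]
  have h3 := h2.inv₀ (inv_ne_zero hS)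
  rw [inv_inv] at h3
  rw [HasProd, SummationFilter.unconditional_filter]
  refine h3.congr fun T => ?_
  rw [Finset.prod_inv_distrib]

end Fermat.Agent.S14.Thaine.ZetaBounds
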