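import Fermat.Agent.S14.Thaine.ZetaBounds.Bridge

/-!
# Route T / ZetaBounds: two-sided bound `c' / (s-1) ≤ ζ_K(s) ≤ c / (s-1)` on `(1, 2]`
(block owner helper20; one worker; statements frozen)

From `tendsto_sub_one_mul_tsum` (limit `dedekindZeta_residue K > 0`,
`NumberField.dedekindZeta_residue_pos`): there is `δ > 0` with
`ρ/2 ≤ (s-1) ζ_K(s) ≤ ρ + 1` on `(1, 1+δ)`.  On `[1+δ, 2]` use that `s ↦ ζ_K(s)` is antitone on
`(1, ∞)` (termwise: `N(I) ≥ 1`; `Summable.tsum_le_tsum`) and `ζ_K(s) ≥ 1` (the term `I = 1`,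
`Summable.le_tsum`/`le_tsum`), so `δ ≤ (s-1) ζ_K(s) ≤ ζ_K(1+δ)` there.
-/

set_option autoImplicit false

namespace Fermat.Agent.S14.Thaine.ZetaBounds

open NumberField Filter Topology
open scoped nonZeroDivisors

namespace Pole

/-- The real Dedekind zeta sum `∑_I N(I)^(-s)` over the nonzero integral ideals. -/
noncomputable def Z (K : Type*) [Field K] [NumberField K] (s : ℝ) : ℝ :=
  ∑' I : (Ideal (𝓞 K))⁰, ((Ideal.absNorm (I : Ideal (𝓞 K)) : ℝ)) ^ (-s)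

variable (K : Type*) [Field K] [NumberField K]

/-- A nonzero integral ideal has norm at least `1`. -/
theorem one_le_absNorm (I : (Ideal (𝓞 K))⁰) :
    (1 : ℝ) ≤ (Ideal.absNorm (I : Ideal (𝓞 K)) : ℝ) := by
  have h : Ideal.absNorm (I : Ideal (𝓞 K)) ≠ 0 := fun h0 =>
    nonZeroDivisors.coe_ne_zero I (Ideal.absNorm_eq_zero_iff.mp h0)
  exact_mod_cast Nat.one_le_iff_ne_zero.mpr h

/-- The terms of the zeta sum are nonnegative. -/
theorem term_nonneg (s : ℝ) (I : (Ideal (𝓞 K))⁰) :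
    (0 : ℝ) ≤ ((Ideal.absNorm (I : Ideal (𝓞 K)) : ℝ)) ^ (-s) :=
  Real.rpow_nonneg (Nat.cast_nonneg _) _

/-- The zeta sum is nonnegative. -/
theorem Z_nonneg (s : ℝ) : 0 ≤ Z K s := tsum_nonneg (term_nonneg K s)

/-- The term of the unit ideal is `1`. -/
theorem term_one (s : ℝ) :
    ((Ideal.absNorm (((1 : (Ideal (𝓞 K))⁰)) : Ideal (𝓞 K)) : ℝ)) ^ (-s) = 1 := by
  rw [Submonoid.coe_one, Ideal.one_eq_top, Ideal.absNorm_top, Nat.cast_one, Real.one_rpow]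

/-- `ζ_K(s) ≥ 1` for `s > 1` (the term of the unit ideal). -/
theorem one_le_Z {s : ℝ} (hs : 1 < s) : 1 ≤ Z K s := by
  have h : ((Ideal.absNorm (((1 : (Ideal (𝓞 K))⁰)) : Ideal (𝓞 K)) : ℝ)) ^ (-s) ≤ Z K s :=
    (summable_absNorm_rpow K hs).le_tsum (1 : (Ideal (𝓞 K))⁰) (fun j _ => term_nonneg K s j)
  rwa [term_one] at h

/-- `ζ_K` is antitone on `(1, ∞)`. -/
theorem Z_antitone {s t : ℝ} (hs : 1 < s) (hst : s ≤ t) : Z K t ≤ Z K s :=
  (summable_absNorm_rpow K (lt_of_lt_of_le hs hst)).tsum_le_tsum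
    (fun I => Real.rpow_le_rpow_of_exponent_le (one_le_absNorm K I) (neg_le_neg hst))
    (summable_absNorm_rpow K hs)

/-- Near `1` (on the right), `(s - 1) ζ_K(s)` is between `ρ / 2` and `ρ + 1`. -/
theorem exists_Ioo :
    ∃ u : ℝ, 1 < u ∧ ∀ s : ℝ, 1 < s → s < u →
      dedekindZeta_residue K / 2 < (s - 1) * Z K s ∧
        (s - 1) * Z K s < dedekindZeta_residue K + 1 := by
  have hρ : 0 < dedekindZeta_residue K := dedekindZeta_residue_pos K
  have hmem : Set.Ioo (dedekindZeta_residue K / 2) (dedekindZeta_residue K + 1) ∈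
      𝓝 (dedekindZeta_residue K) := Ioo_mem_nhds (by linarith) (by linarith)
  have hev := tendsto_sub_one_mul_tsum K hmem
  obtain ⟨u, hu, hsub⟩ := mem_nhdsGT_iff_exists_Ioo_subset.mp hev
  exact ⟨u, hu, fun s hs hsu => hsub ⟨hs, hsu⟩⟩

/-- Upper bound in terms of `Z`. -/
theorem Z_le : ∃ c : ℝ, ∀ s : ℝ, 1 < s → s ≤ 2 → Z K s ≤ c / (s - 1) := by
  obtain ⟨u, hu, H⟩ := exists_Ioo K
  refine ⟨max (dedekindZeta_residue K + 1) (Z K u), fun s hs hs2 => ?_⟩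
  have hs0 : 0 < s - 1 := by linarith
  rw [le_div_iff₀ hs0]
  by_cases hsu : s < u
  · have h1 := (H s hs hsu).2
    have h2 : dedekindZeta_residue K + 1 ≤ max (dedekindZeta_residue K + 1) (Z K u) :=
      le_max_left _ _
    linarith
  · have hus : u ≤ s := not_lt.mp hsu
    have h1 : Z K s ≤ Z K u := Z_antitone K hu hus
    have h2 : Z K u ≤ max (dedekindZeta_residue K + 1) (Z K u) := le_max_right _ _
    have h3 : 0 ≤ Z K s := Z_nonneg K s
    have h4 : Z K s * (s - 1) ≤ Z K s * 1 := mul_le_mul_of_nonneg_left (by linarith) h3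
    linarith

/-- Lower bound in terms of `Z`. -/
theorem Z_ge : ∃ c : ℝ, 0 < c ∧ ∀ s : ℝ, 1 < s → s ≤ 2 → c / (s - 1) ≤ Z K s := by
  obtain ⟨u, hu, H⟩ := exists_Ioo K
  have hρ : 0 < dedekindZeta_residue K := dedekindZeta_residue_pos K
  refine ⟨min (dedekindZeta_residue K / 2) (u - 1), lt_min (by linarith) (by linarith),
    fun s hs _ => ?_⟩
  have hs0 : 0 < s - 1 := by linarith
  rw [div_le_iff₀ hs0]
  by_cases hsu : s < u
  · have h1 := (H s hs hsu).1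
    have h2 : min (dedekindZeta_residue K / 2) (u - 1) ≤ dedekindZeta_residue K / 2 :=
      min_le_left _ _
    linarith
  · have hus : u ≤ s := not_lt.mp hsu
    have h1 : 1 ≤ Z K s := one_le_Z K hs
    have h2 : min (dedekindZeta_residue K / 2) (u - 1) ≤ u - 1 := min_le_right _ _
    have h4 : 1 * (s - 1) ≤ Z K s * (s - 1) := mul_le_mul_of_nonneg_right h1 hs0.le
    linarith

end Pole

/-- (Z2) `ζ_K(s) ≤ c / (s - 1)` for `1 < s ≤ 2`. -/
theorem tsum_le (K : Type*) [Field K] [NumberField K] :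
    ∃ c : ℝ, ∀ s : ℝ, 1 < s → s ≤ 2 →
      ∑' I : (Ideal (𝓞 K))⁰, ((Ideal.absNorm (I : Ideal (𝓞 K)) : ℝ)) ^ (-s) ≤ c / (s - 1) := by
  exact Pole.Z_le K

/-- `c / (s - 1) ≤ ζ_K(s)` for `1 < s ≤ 2`, with `c > 0`. -/
theorem tsum_ge (K : Type*) [Field K] [NumberField K] :
    ∃ c : ℝ, 0 < c ∧ ∀ s : ℝ, 1 < s → s ≤ 2 →
      c / (s - 1) ≤ ∑' I : (Ideal (𝓞 K))⁰, ((Ideal.absNorm (I : Ideal (𝓞 K)) : ℝ)) ^ (-s) := by
  exact Pole.Z_ge K

end Fermat.Agent.S14.Thaine.ZetaBounds
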