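import Fermat.Agent.S14.Thaine.ZetaBounds.Bridge
import Fermat.Agent.S14.Thaine.ZetaBounds.Euler

/-!
# Route T / ZetaBounds: real consequences of the Euler product for `f = N^(-s)`
(block owner helper20; one worker; statements frozen)

Apply `ideal_eulerProduct_hasProd` to the monoid hom `I ↦ ((N I : ℝ) ^ (-s) : ℂ)`
(`Ideal.absNorm` is multiplicative: `map_mul`; `Real.mul_rpow`; summable by
`summable_absNorm_rpow`).  Push the `HasProd` to `ℝ` (e.g. `HasProd.map`/`HasProd.norm` with the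
norm, all factors are real `≥ 1`; or `Complex.ofReal` injectivity), then:
* `prod_le_tsum`: `prod_le_hasProd` (all factors `≥ 1`);
* `summable_primes`: `v ↦ primeNZD K v` is injective (`Summable.comp_injective`);
* `log_tsum_le`: `(1 - x)⁻¹ ≤ exp (x + x^2)` for `0 ≤ x ≤ 1/2` (here `x = N(v)^(-s) ≤ 1/2` as
  `N v ≥ 2`, `s ≥ 1`), so every finite partial product is `≤ exp (∑' v, (x_v + x_v^2))`;
  pass to the limit (`le_of_tendsto'`) and take `Real.log` (`ζ_K(s) ≥ 1 > 0`).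
-/

set_option autoImplicit false

namespace Fermat.Agent.S14.Thaine.ZetaBounds

open NumberField IsDedekindDomain
open scoped nonZeroDivisors

namespace EulerReal

open Filter Topology

/-- `(1 - x)⁻¹ ≤ exp (x + x ^ 2)` for `0 ≤ x ≤ 1 / 2`. -/
theorem inv_one_sub_le_exp {x : ℝ} (h0 : 0 ≤ x) (h1 : x ≤ 1 / 2) :
    (1 - x)⁻¹ ≤ Real.exp (x + x ^ 2) := by
  have hy : 0 ≤ x + x ^ 2 := by positivity
  have h := Real.quadratic_le_exp_of_nonneg hy
  have hpos : 0 < 1 - x := by linarith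
  rw [inv_le_iff_one_le_mul₀ hpos]
  have h3 : 0 ≤ 1 - x - x ^ 2 - x ^ 3 := by
    nlinarith [mul_nonneg h0 (sub_nonneg.mpr h1), mul_nonneg (sq_nonneg x) (sub_nonneg.mpr h1)]
  have h4 : 0 ≤ x ^ 2 / 2 * (1 - x - x ^ 2 - x ^ 3) := mul_nonneg (by positivity) h3
  have h2 : 1 ≤ (1 + (x + x ^ 2) + (x + x ^ 2) ^ 2 / 2) * (1 - x) := by
    have hring : (1 + (x + x ^ 2) + (x + x ^ 2) ^ 2 / 2) * (1 - x)
        = 1 + x ^ 2 / 2 * (1 - x - x ^ 2 - x ^ 3) := by ring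
    rw [hring]
    linarith
  exact h2.trans (mul_le_mul_of_nonneg_right h hpos.le)

variable (K : Type*) [Field K] [NumberField K]

/-- The multiplicative function `I ↦ N(I)^(-s)` on nonzero ideals, with complex values. -/
noncomputable def fhom (s : ℝ) : (Ideal (𝓞 K))⁰ →* ℂ where
  toFun I := (((Ideal.absNorm (I : Ideal (𝓞 K)) : ℝ) ^ (-s) : ℝ) : ℂ)
  map_one' := by
    rw [Submonoid.coe_one, Ideal.one_eq_top, Ideal.absNorm_top, Nat.cast_one, Real.one_rpow,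
      Complex.ofReal_one]
  map_mul' I J := by
    rw [Submonoid.coe_mul, map_mul, Nat.cast_mul,
      Real.mul_rpow (Nat.cast_nonneg _) (Nat.cast_nonneg _), Complex.ofReal_mul]

theorem fhom_apply (s : ℝ) (I : (Ideal (𝓞 K))⁰) :
    fhom K s I = (((Ideal.absNorm (I : Ideal (𝓞 K)) : ℝ) ^ (-s) : ℝ) : ℂ) := rfl

theorem norm_fhom (s : ℝ) (I : (Ideal (𝓞 K))⁰) :
    ‖fhom K s I‖ = (Ideal.absNorm (I : Ideal (𝓞 K)) : ℝ) ^ (-s) := by
  rw [fhom_apply, Complex.norm_real, Real.norm_of_nonneg (Real.rpow_nonneg (Nat.cast_nonneg _) _)]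

omit [NumberField K] in
theorem coe_primeNZD (v : HeightOneSpectrum (𝓞 K)) :
    ((primeNZD K v : (Ideal (𝓞 K))⁰) : Ideal (𝓞 K)) = v.asIdeal := rfl

omit [NumberField K] in
theorem primeNZD_injective : Function.Injective (primeNZD K) := by
  intro v w h
  apply HeightOneSpectrum.ext
  rw [← coe_primeNZD, ← coe_primeNZD, h]

theorem two_le_absNorm (v : HeightOneSpectrum (𝓞 K)) : 2 ≤ Ideal.absNorm v.asIdeal := by
  have h0 : Ideal.absNorm v.asIdeal ≠ 0 := by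
    rw [Ne, Ideal.absNorm_eq_zero_iff]
    exact v.ne_bot
  have h1 : Ideal.absNorm v.asIdeal ≠ 1 := by
    rw [Ne, Ideal.absNorm_eq_one_iff]
    exact v.isPrime.ne_top
  omega

theorem term_nonneg (s : ℝ) (v : HeightOneSpectrum (𝓞 K)) :
    0 ≤ (Ideal.absNorm v.asIdeal : ℝ) ^ (-s) :=
  Real.rpow_nonneg (Nat.cast_nonneg _) _

theorem term_le_half {s : ℝ} (hs : 1 < s) (v : HeightOneSpectrum (𝓞 K)) :
    (Ideal.absNorm v.asIdeal : ℝ) ^ (-s) ≤ 1 / 2 := by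
  have h2 : (2 : ℝ) ≤ Ideal.absNorm v.asIdeal := by exact_mod_cast two_le_absNorm K v
  calc (Ideal.absNorm v.asIdeal : ℝ) ^ (-s) ≤ (2 : ℝ) ^ (-s) :=
        Real.rpow_le_rpow_of_nonpos (by norm_num) h2 (by linarith)
    _ ≤ (2 : ℝ) ^ (-1 : ℝ) := Real.rpow_le_rpow_of_exponent_le (by norm_num) (by linarith)
    _ = 1 / 2 := by rw [Real.rpow_neg_one]; norm_num

theorem one_le_factor {s : ℝ} (hs : 1 < s) (v : HeightOneSpectrum (𝓞 K)) :
    1 ≤ (1 - (Ideal.absNorm v.asIdeal : ℝ) ^ (-s))⁻¹ := by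
  have h0 := term_nonneg K s v
  have h1 := term_le_half K hs v
  rw [one_le_inv₀ (by linarith)]
  linarith

/-- The Euler product of `∑_I N(I)^(-s)` in `ℂ`. -/
theorem hasProd_complex {s : ℝ} (hs : 1 < s) :
    HasProd (fun v : HeightOneSpectrum (𝓞 K) => (1 - fhom K s (primeNZD K v))⁻¹)
      (∑' I : (Ideal (𝓞 K))⁰, fhom K s I) := by
  apply ideal_eulerProduct_hasProd K (fhom K s)
  simp only [norm_fhom]
  exact summable_absNorm_rpow K hs

/-- The Euler product of `∑_I N(I)^(-s)` in `ℝ`. -/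
theorem hasProd_real {s : ℝ} (hs : 1 < s) :
    HasProd (fun v : HeightOneSpectrum (𝓞 K) => (1 - (Ideal.absNorm v.asIdeal : ℝ) ^ (-s))⁻¹)
      (∑' I : (Ideal (𝓞 K))⁰, (Ideal.absNorm (I : Ideal (𝓞 K)) : ℝ) ^ (-s)) := by
  have h := (hasProd_complex K hs).norm
  have hterm : ∀ v : HeightOneSpectrum (𝓞 K),
      ‖(1 - fhom K s (primeNZD K v))⁻¹‖ = (1 - (Ideal.absNorm v.asIdeal : ℝ) ^ (-s))⁻¹ := by
    intro v
    have h1 : (1 - fhom K s (primeNZD K v))⁻¹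
        = (((1 - (Ideal.absNorm v.asIdeal : ℝ) ^ (-s))⁻¹ : ℝ) : ℂ) := by
      rw [fhom_apply, coe_primeNZD]
      push_cast
      rfl
    rw [h1, Complex.norm_real,
      Real.norm_of_nonneg (zero_le_one.trans (one_le_factor K hs v))]
  have hsum : ‖∑' I : (Ideal (𝓞 K))⁰, fhom K s I‖
      = ∑' I : (Ideal (𝓞 K))⁰, (Ideal.absNorm (I : Ideal (𝓞 K)) : ℝ) ^ (-s) := by
    have h1 : ∑' I : (Ideal (𝓞 K))⁰, fhom K s I
        = ((∑' I : (Ideal (𝓞 K))⁰, (Ideal.absNorm (I : Ideal (𝓞 K)) : ℝ) ^ (-s) : ℝ) : ℂ) := by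
      rw [Complex.ofReal_tsum]
      rfl
    rw [h1, Complex.norm_real, Real.norm_of_nonneg
      (tsum_nonneg fun I => Real.rpow_nonneg (Nat.cast_nonneg _) _)]
  simp only [hterm] at h
  rw [hsum] at h
  exact h

/-- The real Euler product as a limit of partial products. -/
theorem tendsto_prod {s : ℝ} (hs : 1 < s) :
    Tendsto (fun T : Finset (HeightOneSpectrum (𝓞 K)) =>
        ∏ v ∈ T, (1 - (Ideal.absNorm v.asIdeal : ℝ) ^ (-s))⁻¹) atTop
      (𝓝 (∑' I : (Ideal (𝓞 K))⁰, (Ideal.absNorm (I : Ideal (𝓞 K)) : ℝ) ^ (-s))) :=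
  hasProd_real K hs

end EulerReal

theorem summable_primes (K : Type*) [Field K] [NumberField K] {s : ℝ} (hs : 1 < s) :
    Summable (fun v : HeightOneSpectrum (𝓞 K) => ((Ideal.absNorm v.asIdeal : ℝ)) ^ (-s)) := by
  have h := (summable_absNorm_rpow K hs).comp_injective (EulerReal.primeNZD_injective K)
  exact h

/-- Finite partial Euler products are bounded by the full sum. -/
theorem prod_le_tsum (K : Type*) [Field K] [NumberField K] {s : ℝ} (hs : 1 < s)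
    (T : Finset (HeightOneSpectrum (𝓞 K))) :
    ∏ v ∈ T, (1 - ((Ideal.absNorm v.asIdeal : ℝ)) ^ (-s))⁻¹ ≤
      ∑' I : (Ideal (𝓞 K))⁰, ((Ideal.absNorm (I : Ideal (𝓞 K)) : ℝ)) ^ (-s) := by
  exact (Finset.prod_mono_set_of_one_le
    (fun v => EulerReal.one_le_factor K hs v)).ge_of_tendsto (EulerReal.tendsto_prod K hs) T

/-- `log ζ_K(s) ≤ ∑_v (N(v)^(-s) + N(v)^(-2s))`. -/
theorem log_tsum_le (K : Type*) [Field K] [NumberField K] {s : ℝ} (hs : 1 < s) :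
    Real.log (∑' I : (Ideal (𝓞 K))⁰, ((Ideal.absNorm (I : Ideal (𝓞 K)) : ℝ)) ^ (-s)) ≤
      ∑' v : HeightOneSpectrum (𝓞 K),
        (((Ideal.absNorm v.asIdeal : ℝ)) ^ (-s) + (((Ideal.absNorm v.asIdeal : ℝ)) ^ (-s)) ^ 2) := by
  have hsq : Summable (fun v : HeightOneSpectrum (𝓞 K) =>
      ((Ideal.absNorm v.asIdeal : ℝ) ^ (-s)) ^ 2) := by
    refine Summable.of_nonneg_of_le (fun v => sq_nonneg _) (fun v => ?_) (summable_primes K hs)
    have h0 := EulerReal.term_nonneg K s v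
    have h1 := EulerReal.term_le_half K hs v
    nlinarith
  have hsumB : Summable (fun v : HeightOneSpectrum (𝓞 K) =>
      (Ideal.absNorm v.asIdeal : ℝ) ^ (-s) + ((Ideal.absNorm v.asIdeal : ℝ) ^ (-s)) ^ 2) :=
    (summable_primes K hs).add hsq
  have hle : ∀ T : Finset (HeightOneSpectrum (𝓞 K)),
      ∏ v ∈ T, (1 - (Ideal.absNorm v.asIdeal : ℝ) ^ (-s))⁻¹ ≤
        Real.exp (∑' v : HeightOneSpectrum (𝓞 K),
          ((Ideal.absNorm v.asIdeal : ℝ) ^ (-s) + ((Ideal.absNorm v.asIdeal : ℝ) ^ (-s)) ^ 2)) := by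
    intro T
    calc ∏ v ∈ T, (1 - (Ideal.absNorm v.asIdeal : ℝ) ^ (-s))⁻¹
        ≤ ∏ v ∈ T, Real.exp ((Ideal.absNorm v.asIdeal : ℝ) ^ (-s)
            + ((Ideal.absNorm v.asIdeal : ℝ) ^ (-s)) ^ 2) :=
          Finset.prod_le_prod
            (fun v _ => zero_le_one.trans (EulerReal.one_le_factor K hs v))
            (fun v _ => EulerReal.inv_one_sub_le_exp (EulerReal.term_nonneg K s v)
              (EulerReal.term_le_half K hs v))
      _ = Real.exp (∑ v ∈ T, ((Ideal.absNorm v.asIdeal : ℝ) ^ (-s)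
            + ((Ideal.absNorm v.asIdeal : ℝ) ^ (-s)) ^ 2)) := (Real.exp_sum _ _).symm
      _ ≤ _ := Real.exp_le_exp.mpr (hsumB.sum_le_tsum T
            (fun v _ => add_nonneg (EulerReal.term_nonneg K s v) (sq_nonneg _)))
  have hZ := le_of_tendsto' (EulerReal.tendsto_prod K hs) hle
  have hZ1 : (1 : ℝ) ≤ ∑' I : (Ideal (𝓞 K))⁰, (Ideal.absNorm (I : Ideal (𝓞 K)) : ℝ) ^ (-s) := by
    simpa using prod_le_tsum K hs ∅
  calc Real.log (∑' I : (Ideal (𝓞 K))⁰, (Ideal.absNorm (I : Ideal (𝓞 K)) : ℝ) ^ (-s))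
      ≤ Real.log (Real.exp (∑' v : HeightOneSpectrum (𝓞 K),
          ((Ideal.absNorm v.asIdeal : ℝ) ^ (-s) + ((Ideal.absNorm v.asIdeal : ℝ) ^ (-s)) ^ 2))) :=
        Real.log_le_log (by linarith) hZ
    _ = _ := Real.log_exp _

end Fermat.Agent.S14.Thaine.ZetaBounds
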