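import Fermat.Agent.S14.Thaine.ZetaBounds.Bridge

/-!
# Route T / ZetaBounds: two more uniform bounds for sums over primes
(block owner helper20; one worker; statements frozen)

* `exists_bound_sum_sq`: `(N(v)^(-s))^2 ≤ N(v)^(-2)` for `s ≥ 1` and `∑_v N(v)^(-2) ≤ ζ_K(2)`
  (`summable_absNorm_rpow` at `s = 2`; `v ↦ primeNZD K v` is injective; `Summable.sum_le_tsum`).
* `finite_primes_mem`: `Ideal.finite_factors` for the nonzero ideal `Ideal.span {x}`
  (`Ideal.dvd_span_singleton`).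
-/

set_option autoImplicit false

namespace Fermat.Agent.S14.Thaine.ZetaBounds

open NumberField IsDedekindDomain
open scoped nonZeroDivisors

namespace PrimeBounds

/-- `v ↦ primeNZD K v` is injective. -/
theorem primeNZD_injective (K : Type*) [Field K] [NumberField K] :
    Function.Injective (primeNZD K) := by
  intro v w h
  apply HeightOneSpectrum.ext
  exact congrArg (fun I : (Ideal (𝓞 K))⁰ => (I : Ideal (𝓞 K))) h

/-- The norm of a nonzero prime is at least `1`. -/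
theorem one_le_absNorm (K : Type*) [Field K] [NumberField K] (v : HeightOneSpectrum (𝓞 K)) :
    (1 : ℝ) ≤ (Ideal.absNorm v.asIdeal : ℝ) := by
  have h : Ideal.absNorm v.asIdeal ≠ 0 := fun h0 => v.ne_bot (Ideal.absNorm_eq_zero_iff.mp h0)
  exact_mod_cast Nat.one_le_iff_ne_zero.mpr h

/-- `(N(v)^(-s))^2 ≤ N(v)^(-2)` for `s ≥ 1`. -/
theorem sq_rpow_le (K : Type*) [Field K] [NumberField K] (v : HeightOneSpectrum (𝓞 K)) {s : ℝ}
    (hs : 1 ≤ s) :
    (((Ideal.absNorm v.asIdeal : ℝ)) ^ (-s)) ^ 2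
      ≤ ((Ideal.absNorm v.asIdeal : ℝ)) ^ (-(2 : ℝ)) := by
  have h1 : (1 : ℝ) ≤ (Ideal.absNorm v.asIdeal : ℝ) := one_le_absNorm K v
  have h0 : (0 : ℝ) ≤ (Ideal.absNorm v.asIdeal : ℝ) := zero_le_one.trans h1
  rw [← Real.rpow_mul_natCast h0 (-s) 2]
  apply Real.rpow_le_rpow_of_exponent_le h1
  push_cast
  linarith

theorem coe_primeNZD (K : Type*) [Field K] [NumberField K] (v : HeightOneSpectrum (𝓞 K)) :
    ((primeNZD K v : (Ideal (𝓞 K))⁰) : Ideal (𝓞 K)) = v.asIdeal := rfl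

/-- `∑_v N(v)^(-2)` over the nonzero primes converges. -/
theorem summable_primes_two (K : Type*) [Field K] [NumberField K] :
    Summable (fun v : HeightOneSpectrum (𝓞 K) =>
      ((Ideal.absNorm v.asIdeal : ℝ)) ^ (-(2 : ℝ))) := by
  have h2 : (1 : ℝ) < 2 := by norm_num
  have h := (summable_absNorm_rpow K h2).comp_injective (primeNZD_injective K)
  simpa only [Function.comp_def, coe_primeNZD] using h

end PrimeBounds

theorem exists_bound_sum_sq (K : Type*) [Field K] [NumberField K] :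
    ∃ C : ℝ, ∀ s : ℝ, 1 ≤ s → ∀ T : Finset (HeightOneSpectrum (𝓞 K)),
      ∑ v ∈ T, (((Ideal.absNorm v.asIdeal : ℝ)) ^ (-s)) ^ 2 ≤ C := by
  refine ⟨∑' v : HeightOneSpectrum (𝓞 K), ((Ideal.absNorm v.asIdeal : ℝ)) ^ (-(2 : ℝ)),
    fun s hs T => ?_⟩
  calc ∑ v ∈ T, (((Ideal.absNorm v.asIdeal : ℝ)) ^ (-s)) ^ 2
      ≤ ∑ v ∈ T, ((Ideal.absNorm v.asIdeal : ℝ)) ^ (-(2 : ℝ)) :=
        Finset.sum_le_sum fun v _ => PrimeBounds.sq_rpow_le K v hs
    _ ≤ ∑' v : HeightOneSpectrum (𝓞 K), ((Ideal.absNorm v.asIdeal : ℝ)) ^ (-(2 : ℝ)) :=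
        (PrimeBounds.summable_primes_two K).sum_le_tsum T
          (fun v _ => Real.rpow_nonneg (Nat.cast_nonneg _) _)

theorem finite_primes_mem (K : Type*) [Field K] [NumberField K] (x : 𝓞 K) (hx : x ≠ 0) :
    {v : HeightOneSpectrum (𝓞 K) | x ∈ v.asIdeal}.Finite := by
  have h : (Ideal.span {x} : Ideal (𝓞 K)) ≠ 0 := by
    rw [Ne, Ideal.zero_eq_bot, Ideal.span_singleton_eq_bot]
    exact hx
  refine (Ideal.finite_factors h).subset ?_
  intro v hv
  exact Ideal.dvd_span_singleton.mpr hv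

end Fermat.Agent.S14.Thaine.ZetaBounds
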