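import Fermat.Agent.S14.Thaine.Defs

/-!
# Route T / ZetaBounds: the primes of degree `≥ 2` have a bounded sum, uniformly in `s ≥ 1`
(block owner helper20; one worker; statement frozen)

A prime `v` over the rational prime `ℓ` has `N v = ℓ ^ f` (`Ideal.absNorm_eq_pow_inertiaDeg'` or
similar; `f = Ideal.inertiaDeg`); if `N v` is not prime then `f ≥ 2`, so `N(v)^(-s) ≤ ℓ^(-2)` for
`s ≥ 1`.  At most `[K : ℚ]` primes lie over `ℓ` (`Ideal.sum_ramification_inertia`,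
`Ideal.primesOver` / `Ideal.primesOverFinset`, or an `ncard_primesOver` lemma).  So the sum is
`≤ [K:ℚ] * ∑_n n^(-2)` (group `T` by the rational prime below: `Finset.sum_fiberwise`-type lemma
or `Finset.sum_comp`; `Real.summable_nat_rpow_inv`/`Real.summable_one_div_nat_pow`).
-/

set_option autoImplicit false

namespace Fermat.Agent.S14.Thaine.ZetaBounds

open NumberField IsDedekindDomain
open scoped nonZeroDivisors

namespace PrimeDeg

variable {K : Type*} [Field K] [NumberField K]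

/-- The rational prime below `v`. -/
noncomputable def below (v : HeightOneSpectrum (𝓞 K)) : ℕ :=
  Ideal.absNorm (v.asIdeal.under ℤ)

omit [NumberField K] in
theorem below_prime (v : HeightOneSpectrum (𝓞 K)) : (below v).Prime := by
  have : NeZero v.asIdeal := ⟨v.ne_bot⟩
  exact Nat.absNorm_under_prime v.asIdeal

theorem absNorm_eq (v : HeightOneSpectrum (𝓞 K)) :
    Ideal.absNorm v.asIdeal = below v ^ v.asIdeal.inertiaDeg ℤ :=
  (Ideal.absNorm_pow_inertiaDeg (v.asIdeal.under ℤ) v.asIdeal).symm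

theorem inertiaDeg_pos (v : HeightOneSpectrum (𝓞 K)) : 0 < v.asIdeal.inertiaDeg ℤ :=
  Ideal.inertiaDeg_pos _ _

theorem sq_le_absNorm (v : HeightOneSpectrum (𝓞 K)) (h : ¬ (Ideal.absNorm v.asIdeal).Prime) :
    below v ^ 2 ≤ Ideal.absNorm v.asIdeal := by
  rw [absNorm_eq]
  apply Nat.pow_le_pow_right (below_prime v).pos
  by_contra hlt
  have h0 := inertiaDeg_pos v
  have h1 : v.asIdeal.inertiaDeg ℤ = 1 := by omega
  apply h
  rw [absNorm_eq, h1, pow_one]
  exact below_prime v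

/-- The number of primes over a prime ideal of `ℤ` is at most the degree. -/
theorem card_primesOver_le (𝔭 : Ideal ℤ) [𝔭.IsPrime] [Fintype (𝔭.primesOver (𝓞 K))] :
    Fintype.card (𝔭.primesOver (𝓞 K)) ≤ Module.finrank ℤ (𝓞 K) := by
  rw [← Ideal.sum_ramification_inertia_eq_finrank 𝔭 (𝓞 K), Fintype.card_eq_sum_ones]
  refine Finset.sum_le_sum fun q _ => ?_
  have h1 : 0 < q.1.ramificationIdx ℤ := Ideal.ramificationIdx_pos _ _
  have h2 : 0 < q.1.inertiaDeg ℤ := Ideal.inertiaDeg_pos _ _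
  exact Nat.mul_pos h1 h2

omit [NumberField K] in
/-- Two primes with the same rational prime below lie over the same ideal of `ℤ`. -/
theorem under_eq_of_below_eq {v w : HeightOneSpectrum (𝓞 K)} (h : below v = below w) :
    v.asIdeal.under ℤ = w.asIdeal.under ℤ := by
  rw [← Int.ideal_span_absNorm_eq_self (v.asIdeal.under ℤ),
    ← Int.ideal_span_absNorm_eq_self (w.asIdeal.under ℤ)]
  change Ideal.span {((below v : ℕ) : ℤ)} = Ideal.span {((below w : ℕ) : ℤ)}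
  rw [h]

/-- At most `[K : ℚ]` primes of `K` lie over a given rational prime. -/
theorem card_fiber_le (T : Finset (HeightOneSpectrum (𝓞 K))) (n : ℕ) :
    (T.filter (fun v => below v = n)).card ≤ Module.finrank ℤ (𝓞 K) := by
  classical
  rcases (T.filter (fun v => below v = n)).eq_empty_or_nonempty with h | ⟨v₀, hv₀⟩
  · rw [h, Finset.card_empty]
    exact Nat.zero_le _
  · have hn : below v₀ = n := (Finset.mem_filter.mp hv₀).2
    have hfin : ((v₀.asIdeal.under ℤ).primesOver (𝓞 K)).Finite :=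
      Algebra.QuasiFinite.finite_primesOver _
    let _ : Fintype ((v₀.asIdeal.under ℤ).primesOver (𝓞 K)) := hfin.fintype
    refine le_trans ?_ (card_primesOver_le (K := K) (v₀.asIdeal.under ℤ))
    rw [← Set.toFinset_card]
    refine Finset.card_le_card_of_injOn (fun v => v.asIdeal) ?_ ?_
    · intro v hv
      have hv' : below v = n := (Finset.mem_filter.mp (Finset.mem_coe.mp hv)).2
      rw [Finset.mem_coe, Set.mem_toFinset]
      exact ⟨v.isPrime, ⟨under_eq_of_below_eq (hn.trans hv'.symm)⟩⟩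
    · intro v _ w _ hvw
      exact HeightOneSpectrum.ext hvw

/-- The termwise bound. -/
theorem rpow_le (v : HeightOneSpectrum (𝓞 K)) (h : ¬ (Ideal.absNorm v.asIdeal).Prime) {s : ℝ}
    (hs : 1 ≤ s) :
    ((Ideal.absNorm v.asIdeal : ℝ)) ^ (-s) ≤ (((below v : ℕ) : ℝ) ^ 2)⁻¹ := by
  have h1 : below v ^ 2 ≤ Ideal.absNorm v.asIdeal := sq_le_absNorm v h
  have hpos : 0 < below v ^ 2 := pow_pos (below_prime v).pos 2
  have h1' : (((below v : ℕ) : ℝ) ^ 2) ≤ (Ideal.absNorm v.asIdeal : ℝ) := by exact_mod_cast h1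
  have hpos' : (0 : ℝ) < ((below v : ℕ) : ℝ) ^ 2 := by exact_mod_cast hpos
  have hN : (1 : ℝ) ≤ (Ideal.absNorm v.asIdeal : ℝ) := by
    exact_mod_cast le_trans (Nat.succ_le_of_lt hpos) h1
  calc ((Ideal.absNorm v.asIdeal : ℝ)) ^ (-s) ≤ ((Ideal.absNorm v.asIdeal : ℝ)) ^ (-1 : ℝ) :=
        Real.rpow_le_rpow_of_exponent_le hN (neg_le_neg hs)
    _ = ((Ideal.absNorm v.asIdeal : ℝ))⁻¹ := Real.rpow_neg_one _
    _ ≤ (((below v : ℕ) : ℝ) ^ 2)⁻¹ := inv_anti₀ hpos' h1'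

end PrimeDeg

/-- The primes of degree `≥ 2` have a bounded sum, uniformly in `s ≥ 1`. -/
theorem exists_bound_sum_not_prime (K : Type*) [Field K] [NumberField K] :
    ∃ C : ℝ, ∀ s : ℝ, 1 ≤ s → ∀ T : Finset (HeightOneSpectrum (𝓞 K)),
      (∀ v ∈ T, ¬ (Ideal.absNorm v.asIdeal).Prime) →
      ∑ v ∈ T, ((Ideal.absNorm v.asIdeal : ℝ)) ^ (-s) ≤ C := by
  classical
  refine ⟨(Module.finrank ℤ (𝓞 K) : ℝ) * ∑' n : ℕ, ((n : ℝ) ^ 2)⁻¹, ?_⟩
  intro s hs T hT
  have hsum : Summable (fun n : ℕ => ((n : ℝ) ^ 2)⁻¹) :=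
    Real.summable_nat_pow_inv.mpr one_lt_two
  have hnn : ∀ n : ℕ, (0 : ℝ) ≤ ((n : ℝ) ^ 2)⁻¹ := fun n => inv_nonneg.mpr (sq_nonneg _)
  calc ∑ v ∈ T, ((Ideal.absNorm v.asIdeal : ℝ)) ^ (-s)
      ≤ ∑ v ∈ T, (((PrimeDeg.below v : ℕ) : ℝ) ^ 2)⁻¹ :=
        Finset.sum_le_sum fun v hv => PrimeDeg.rpow_le v (hT v hv) hs
    _ = ∑ n ∈ T.image PrimeDeg.below,
          (T.filter (fun v => PrimeDeg.below v = n)).card • (((n : ℕ) : ℝ) ^ 2)⁻¹ :=
        Finset.sum_comp (fun n : ℕ => ((n : ℝ) ^ 2)⁻¹) PrimeDeg.below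
    _ ≤ ∑ n ∈ T.image PrimeDeg.below, (Module.finrank ℤ (𝓞 K) : ℝ) * (((n : ℕ) : ℝ) ^ 2)⁻¹ := by
        refine Finset.sum_le_sum fun n _ => ?_
        rw [nsmul_eq_mul]
        exact mul_le_mul_of_nonneg_right (by exact_mod_cast PrimeDeg.card_fiber_le T n) (hnn n)
    _ = (Module.finrank ℤ (𝓞 K) : ℝ) * ∑ n ∈ T.image PrimeDeg.below, (((n : ℕ) : ℝ) ^ 2)⁻¹ :=
        (Finset.mul_sum _ _ _).symm
    _ ≤ (Module.finrank ℤ (𝓞 K) : ℝ) * ∑' n : ℕ, ((n : ℝ) ^ 2)⁻¹ :=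
        mul_le_mul_of_nonneg_left (hsum.sum_le_tsum _ fun n _ => hnn n) (Nat.cast_nonneg _)

end Fermat.Agent.S14.Thaine.ZetaBounds
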