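import Fermat.Agent.S14.Thaine.ZetaBounds.Pole
import Fermat.Agent.S14.Thaine.ZetaBounds.EulerReal
import Fermat.Agent.S14.Thaine.ZetaBounds.PrimeBounds
import Fermat.Agent.S14.Thaine.ZetaBounds.PrimeDeg

/-!
# Route T / ZetaBounds: (Z4) the degree-one primes carry the whole pole
(block owner helper20; one worker; statement frozen)

Let `c'` from `tsum_ge`, `C₁` from `exists_bound_sum_not_prime`, `C₂` from `exists_bound_sum_sq`,
`m` the number of primes containing `n` (`finite_primes_mem`), and `C := C₁ + C₂ + m + 1 - log c'`.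
For `s ∈ (1, 2]`: `log (c'/(s-1)) ≤ log ζ_K(s) ≤ ∑' v, x_v + ∑' v, x_v^2` (`log_tsum_le`,
`x_v = N(v)^(-s)`), `∑' v, x_v^2 ≤ C₂`; choose a finite `T₀` with `∑_{T₀} x_v ≥ ∑' v, x_v - 1`
(`summable_primes`), and split `T₀` into the primes with non-prime norm (`≤ C₁`), the primes
containing `n` (`≤ m`, each `x_v ≤ 1`) and the rest; `T :=` image of the rest under `v ↦ v.asIdeal`.
-/

set_option autoImplicit false

namespace Fermat.Agent.S14.Thaine.ZetaBounds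

open NumberField IsDedekindDomain
open scoped nonZeroDivisors

namespace Z4

variable (K : Type*) [Field K] [NumberField K]

/-- Each term `N(v)^(-s)` is at most `1` (for `s ≥ 0`). -/
theorem term_le_one (v : HeightOneSpectrum (𝓞 K)) {s : ℝ} (hs : 0 ≤ s) :
    ((Ideal.absNorm v.asIdeal : ℝ)) ^ (-s) ≤ 1 := by
  have h0 : Ideal.absNorm v.asIdeal ≠ 0 := fun h => v.ne_bot (Ideal.absNorm_eq_zero_iff.mp h)
  have h1 : (1 : ℝ) ≤ (Ideal.absNorm v.asIdeal : ℝ) := by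
    exact_mod_cast Nat.one_le_iff_ne_zero.mpr h0
  exact Real.rpow_le_one_of_one_le_of_nonpos h1 (by linarith)

/-- The squares of the terms are summable (their partial sums are bounded). -/
theorem summable_sq {s : ℝ} (hs : 1 ≤ s) :
    Summable (fun v : HeightOneSpectrum (𝓞 K) =>
      (((Ideal.absNorm v.asIdeal : ℝ)) ^ (-s)) ^ 2) := by
  obtain ⟨C, hC⟩ := exists_bound_sum_sq K
  exact summable_of_sum_le (fun v => sq_nonneg _) (fun u => hC s hs u)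

/-- A finite partial sum approximating the sum over all primes up to `1`. -/
theorem exists_finset_gt {s : ℝ} (hs : 1 < s) :
    ∃ T₀ : Finset (HeightOneSpectrum (𝓞 K)),
      ∑' v : HeightOneSpectrum (𝓞 K),
          (((Ideal.absNorm v.asIdeal : ℝ)) ^ (-s) + (((Ideal.absNorm v.asIdeal : ℝ)) ^ (-s)) ^ 2)
        - 1
        < ∑ v ∈ T₀,
          (((Ideal.absNorm v.asIdeal : ℝ)) ^ (-s)
            + (((Ideal.absNorm v.asIdeal : ℝ)) ^ (-s)) ^ 2) := by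
  have hsum := ((summable_primes K hs).add (summable_sq K hs.le)).hasSum
  have h : Filter.Tendsto (fun T : Finset (HeightOneSpectrum (𝓞 K)) => ∑ v ∈ T,
        (((Ideal.absNorm v.asIdeal : ℝ)) ^ (-s) + (((Ideal.absNorm v.asIdeal : ℝ)) ^ (-s)) ^ 2))
      Filter.atTop (nhds (∑' v : HeightOneSpectrum (𝓞 K),
        (((Ideal.absNorm v.asIdeal : ℝ)) ^ (-s)
          + (((Ideal.absNorm v.asIdeal : ℝ)) ^ (-s)) ^ 2))) := hsum
  exact ((tendsto_order.1 h).1 _ (sub_one_lt _)).exists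

/-- Splitting a finite set of primes: non-prime norm, containing `n`, and the rest. -/
theorem split_sum (n : ℕ)
    (hF : {v : HeightOneSpectrum (𝓞 K) | ((n : ℕ) : 𝓞 K) ∈ v.asIdeal}.Finite)
    {s C₁ : ℝ} (hs : 0 ≤ s)
    (hC₁ : ∀ T : Finset (HeightOneSpectrum (𝓞 K)),
      (∀ v ∈ T, ¬ (Ideal.absNorm v.asIdeal).Prime) →
      ∑ v ∈ T, ((Ideal.absNorm v.asIdeal : ℝ)) ^ (-s) ≤ C₁)
    (T₀ : Finset (HeightOneSpectrum (𝓞 K))) :
    ∃ T : Finset (Ideal (𝓞 K)),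
      (∀ P ∈ T, P.IsPrime ∧ (Ideal.absNorm P).Prime ∧ ((n : ℕ) : 𝓞 K) ∉ P) ∧
      ∑ v ∈ T₀, ((Ideal.absNorm v.asIdeal : ℝ)) ^ (-s)
        ≤ C₁ + (hF.toFinset.card : ℝ) + ∑ P ∈ T, ((Ideal.absNorm P : ℝ)) ^ (-s) := by
  classical
  set R : Finset (HeightOneSpectrum (𝓞 K)) :=
    T₀.filter (fun v => (Ideal.absNorm v.asIdeal).Prime) with hR
  refine ⟨(R.filter (fun v => ¬ ((n : ℕ) : 𝓞 K) ∈ v.asIdeal)).image (fun v => v.asIdeal), ?_, ?_⟩
  · intro P hP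
    obtain ⟨v, hv, rfl⟩ := Finset.mem_image.mp hP
    rw [Finset.mem_filter, hR, Finset.mem_filter] at hv
    exact ⟨v.isPrime, hv.1.2, hv.2⟩
  · rw [Finset.sum_image (fun v _ w _ h => HeightOneSpectrum.ext h)]
    have h1 := Finset.sum_filter_add_sum_filter_not T₀
      (fun v => (Ideal.absNorm v.asIdeal).Prime)
      (fun v => ((Ideal.absNorm v.asIdeal : ℝ)) ^ (-s))
    have h2 := Finset.sum_filter_add_sum_filter_not R
      (fun v => ((n : ℕ) : 𝓞 K) ∈ v.asIdeal)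
      (fun v => ((Ideal.absNorm v.asIdeal : ℝ)) ^ (-s))
    have hA : ∑ v ∈ T₀.filter (fun v => ¬ (Ideal.absNorm v.asIdeal).Prime),
        ((Ideal.absNorm v.asIdeal : ℝ)) ^ (-s) ≤ C₁ :=
      hC₁ _ (fun v hv => (Finset.mem_filter.mp hv).2)
    have hB : ∑ v ∈ R.filter (fun v => ((n : ℕ) : 𝓞 K) ∈ v.asIdeal),
        ((Ideal.absNorm v.asIdeal : ℝ)) ^ (-s) ≤ (hF.toFinset.card : ℝ) := by
      have hcard : (R.filter (fun v => ((n : ℕ) : 𝓞 K) ∈ v.asIdeal)).card ≤ hF.toFinset.card :=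
        Finset.card_le_card (fun v hv => hF.mem_toFinset.mpr (Finset.mem_filter.mp hv).2)
      have hle := Finset.sum_le_card_nsmul (R.filter (fun v => ((n : ℕ) : 𝓞 K) ∈ v.asIdeal))
        (fun v => ((Ideal.absNorm v.asIdeal : ℝ)) ^ (-s)) 1 (fun v _ => term_le_one K v hs)
      rw [nsmul_eq_mul, mul_one] at hle
      exact hle.trans (by exact_mod_cast hcard)
    linarith

end Z4

/-- (Z4) -/
theorem degreeOne_primes_sum_ge (K : Type*) [Field K] [NumberField K]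
    (n : ℕ) (hn : n ≠ 0) :
    ∃ C : ℝ, ∀ s : ℝ, 1 < s → s ≤ 2 →
      ∃ T : Finset (Ideal (𝓞 K)),
        (∀ P ∈ T, P.IsPrime ∧ (Ideal.absNorm P).Prime ∧ ((n : ℕ) : 𝓞 K) ∉ P) ∧
        Real.log (1 / (s - 1)) - C ≤ ∑ P ∈ T, ((Ideal.absNorm P : ℝ)) ^ (-s) := by
  obtain ⟨c', hc', hge⟩ := tsum_ge K
  obtain ⟨C₁, hC₁⟩ := exists_bound_sum_not_prime K
  obtain ⟨C₂, hC₂⟩ := exists_bound_sum_sq K
  have hn' : ((n : ℕ) : 𝓞 K) ≠ 0 := Nat.cast_ne_zero.mpr hn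
  have hF := finite_primes_mem K ((n : ℕ) : 𝓞 K) hn'
  refine ⟨C₁ + C₂ + (hF.toFinset.card : ℝ) + 1 - Real.log c', fun s hs1 hs2 => ?_⟩
  obtain ⟨T₀, hT₀⟩ := Z4.exists_finset_gt K hs1
  obtain ⟨T, hT, hTsum⟩ := Z4.split_sum K n hF (by linarith : (0 : ℝ) ≤ s)
    (fun T h => hC₁ s hs1.le T h) T₀
  refine ⟨T, hT, ?_⟩
  have hpos : 0 < s - 1 := sub_pos.mpr hs1
  have hlog1 := Real.log_le_log (div_pos hc' hpos) (hge s hs1 hs2)
  have hlog2 := log_tsum_le K hs1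
  have hlogc : Real.log (c' / (s - 1)) = Real.log c' + Real.log (1 / (s - 1)) := by
    rw [Real.log_div hc'.ne' hpos.ne', one_div, Real.log_inv]
    ring
  have hsplit : ∑ v ∈ T₀, (((Ideal.absNorm v.asIdeal : ℝ)) ^ (-s)
        + (((Ideal.absNorm v.asIdeal : ℝ)) ^ (-s)) ^ 2)
      = ∑ v ∈ T₀, ((Ideal.absNorm v.asIdeal : ℝ)) ^ (-s)
        + ∑ v ∈ T₀, (((Ideal.absNorm v.asIdeal : ℝ)) ^ (-s)) ^ 2 := Finset.sum_add_distrib
  have hsq := hC₂ s hs1.le T₀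
  linarith

end Fermat.Agent.S14.Thaine.ZetaBounds
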