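import Fermat.Agent.S14.Thaine.Defs

/-!
# Route T / ZetaBounds: the Kummer extension `M = K(u^{1/p})`
(block owner helper20; one worker; statement frozen)

Take `M := (X ^ p - C (u : K)).SplittingField` (same universe as `K`).  Mathlib file
`Mathlib/FieldTheory/KummerExtension.lean`: `X_pow_sub_C_irreducible_of_prime` (irreducible since
`u` is not a `p`-th power), `finrank_of_isSplittingField_X_pow_sub_C`,
`isGalois_of_isSplittingField_X_pow_sub_C`, `autEquivZmod` / `autEquivZmod_symm_apply_intCast`
(the automorphism `α ↦ ζ • α`), all under the hypothesis `(primitiveRoots p K).Nonempty`.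
`NumberField M` from finiteness over `K` (`NumberField.of_module_finite` or
`FiniteDimensional.trans ℚ K M`; char. 0).  `α` = a root of `X ^ p - C u` in `M`
(`Polynomial.SplittingField` splits it, degree `p ≠ 0`), integral over `ℤ` since `u` is.
-/

set_option autoImplicit false

universe u

namespace Fermat.Agent.S14.Thaine.ZetaBounds

open NumberField Polynomial

theorem exists_kummer_field {p : ℕ} [Fact p.Prime] (K : Type u) [Field K] [NumberField K]
    (ζ : K) (hζ : IsPrimitiveRoot ζ p) (u : 𝓞 K) (hu : ¬ ∃ x : K, (u : K) = x ^ p) :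
    ∃ (M : Type u) (_ : Field M) (_ : NumberField M) (_ : Algebra K M) (α : 𝓞 M)
      (τ : M ≃ₐ[K] M),
      Module.finrank K M = p ∧ (α : M) ^ p = algebraMap K M (u : K) ∧
        τ (α : M) = algebraMap K M ζ * (α : M) := by
  have hp : p.Prime := Fact.out
  have : NeZero p := ⟨hp.ne_zero⟩
  have H : Irreducible (X ^ p - C (u : K)) :=
    X_pow_sub_C_irreducible_of_prime hp (fun b hb => hu ⟨b, hb.symm⟩)
  have hζ' : (primitiveRoots p K).Nonempty := ⟨ζ, (mem_primitiveRoots hp.pos).mpr hζ⟩
  let M := (X ^ p - C (u : K)).SplittingField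
  have : NumberField M := NumberField.of_module_finite K M
  let α₀ : M := rootOfSplitsXPowSubC hp.pos (u : K) M
  have hα₀ : α₀ ^ p = algebraMap K M (u : K) := rootOfSplitsXPowSubC_pow (u : K) M
  have hint : IsIntegral ℤ α₀ := by
    apply IsIntegral.of_pow hp.pos
    rw [hα₀]
    exact (RingOfIntegers.isIntegral_coe u).algebraMap
  let τ : M ≃ₐ[K] M := (autEquivZmod H M hζ).symm (Multiplicative.ofAdd ((1 : ℤ) : ZMod p))
  have hτ : τ α₀ = ζ • α₀ := by
    have h := autEquivZmod_symm_apply_intCast H M hα₀ hζ 1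
    rw [zpow_one] at h
    exact h
  refine ⟨M, inferInstance, inferInstance, inferInstance, ⟨α₀, hint⟩, τ, ?_, hα₀, ?_⟩
  · exact finrank_of_isSplittingField_X_pow_sub_C hζ' H M
  · rw [Algebra.smul_def] at hτ
    exact hτ

end Fermat.Agent.S14.Thaine.ZetaBounds
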