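import Fermat.Agent.S14.Thaine.Defs

/-!
# Route T / ZetaBounds: `p` distinct primes of `K(u^{1/p})` above a prime `P` with `u ≡ x^p mod P`
(block owner helper20; one worker; statement frozen)

`α ^ p = u`, `τ α = ζ α`.  In `𝓞 M`: `∏_{i<p} (α - x ζ^i) = α^p - x^p = u - x^p ∈ P 𝓞_M`
(`IsPrimitiveRoot.pow_sub_pow_eq_prod_sub_mul`-type identity, or `X ^ p - C = ∏ (X - ζ^i • ..)`).
Take a prime `Q₀` of `𝓞 M` above `P` (exists: `Ideal.exists_ideal_over_prime_of_isIntegral` /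
`Ideal.exists_ideal_liesOver_maximal_of_isIntegral`); it contains some `α - x ζ^{i₀}`.
Let `τ'` be the automorphism of `𝓞 M` induced by `τ` (`galRestrict` or
`NumberField.RingOfIntegers.mapRingEquiv`), and `Q k := (Q₀).map (τ' ^ k)` (or `comap`).  Then
`Q k` is a prime above `P` (`τ` fixes `K`) containing `ζ^k α - x ζ^{i₀}`, i.e. `α - x ζ^{i₀ - k}`.
If `Q k = Q k'` with `k ≠ k'` (`k, k' < p`) then it contains `x ζ^a (1 - ζ^m)` with
`0 < m < p`, hence `x` (then `x ^ p ∈ P`, so `u ∈ P`: contradiction) or `1 - ζ^m`, which divides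
`p` (`∏_{0<m<p} (1 - ζ^m) = p`; Mathlib: `IsPrimitiveRoot.sub_one_norm_prime`-type facts or
`Polynomial.cyclotomic_prime`/`eval_one_cyclotomic_prime`), so `p ∈ P`: contradiction.
-/

set_option autoImplicit false

namespace Fermat.Agent.S14.Thaine.ZetaBounds

open NumberField

namespace KummerSplitA

/-- If `η` is a primitive `p`-th root of unity (`1 < p`) of a domain and `η - 1` lies in an
ideal `P`, then so does `p` (because `0 = ∑_{i<p} η^i ≡ p` modulo `η - 1`). -/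
theorem natCast_mem_of_sub_one_mem {R : Type*} [CommRing R] [IsDomain R] {p : ℕ} (hp : 1 < p)
    {η : R} (hη : IsPrimitiveRoot η p) (P : Ideal R) (h : η - 1 ∈ P) : (p : R) ∈ P := by
  have h0 : ∑ i ∈ Finset.range p, η ^ i = 0 := hη.geom_sum_eq_zero hp
  have h1 : (p : R) = - ∑ i ∈ Finset.range p, (η ^ i - 1) := by
    rw [Finset.sum_sub_distrib, h0]
    simp
  rw [h1]
  refine P.neg_mem (P.sum_mem fun i _ => ?_)
  exact Ideal.mem_of_dvd _ (sub_one_dvd_pow_sub_one η i) h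

variable {K M : Type*} [Field K] [Field M] [Algebra K M]

/-- The endomorphism of `𝓞 M` induced by a `K`-automorphism of `M`. -/
noncomputable def res (σ : M ≃ₐ[K] M) : 𝓞 M →+* 𝓞 M :=
  RingOfIntegers.mapRingHom ((σ : M →ₐ[K] M) : M →+* M)

theorem coe_res (σ : M ≃ₐ[K] M) (y : 𝓞 M) : ((res σ y : 𝓞 M) : M) = σ (y : M) := rfl

theorem coe_algebraMap (y : 𝓞 K) :
    ((algebraMap (𝓞 K) (𝓞 M) y : 𝓞 M) : M) = algebraMap K M (y : K) := rfl

/-- The induced endomorphism fixes `𝓞 K`. -/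
theorem res_algebraMap (σ : M ≃ₐ[K] M) (y : 𝓞 K) :
    res σ (algebraMap (𝓞 K) (𝓞 M) y) = algebraMap (𝓞 K) (𝓞 M) y := by
  apply RingOfIntegers.ext
  rw [coe_res, coe_algebraMap, AlgEquiv.commutes]

theorem res_comp_algebraMap (σ : M ≃ₐ[K] M) :
    (res σ).comp (algebraMap (𝓞 K) (𝓞 M)) = algebraMap (𝓞 K) (𝓞 M) :=
  RingHom.ext (res_algebraMap σ)

/-- `τ^k α = ζ^k α`. -/
theorem pow_apply_root (τ : M ≃ₐ[K] M) (ζ : K) (a : M) (hτ : τ a = algebraMap K M ζ * a)
    (k : ℕ) : (τ ^ k) a = algebraMap K M ζ ^ k * a := by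
  induction k with
  | zero => simp
  | succ k ih =>
    rw [pow_succ', AlgEquiv.mul_apply, ih, map_mul, map_pow, AlgEquiv.commutes, hτ]
    ring

end KummerSplitA

open KummerSplitA

theorem exists_primes_above {p : ℕ} [Fact p.Prime] (K M : Type*) [Field K] [NumberField K]
    [Field M] [NumberField M] [Algebra K M]
    (ζ : K) (hζ : IsPrimitiveRoot ζ p) (u : 𝓞 K) (α : 𝓞 M)
    (hα : (α : M) ^ p = algebraMap K M (u : K))
    (τ : M ≃ₐ[K] M) (hτ : τ (α : M) = algebraMap K M ζ * (α : M))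
    (P : Ideal (𝓞 K)) (hP : P.IsPrime) (hP0 : P ≠ ⊥) (hPp : ((p : ℕ) : 𝓞 K) ∉ P) (huP : u ∉ P)
    (x : 𝓞 K) (hx : x ^ p - u ∈ P) :
    ∃ Q : Fin p → Ideal (𝓞 M), Function.Injective Q ∧
      ∀ i, (Q i).IsPrime ∧ (Q i).comap (algebraMap (𝓞 K) (𝓞 M)) = P := by
  classical
  have hp : p.Prime := Fact.out
  have : NeZero p := ⟨hp.ne_zero⟩
  have _hP0 := hP0
  -- integral versions of `ζ` and `x`
  have hζ' : IsPrimitiveRoot hζ.toInteger p := hζ.toInteger_isPrimitiveRoot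
  generalize hζ'def : hζ.toInteger = ζ' at hζ'
  have hζ'coe : (ζ' : K) = ζ := by rw [← hζ'def]; rfl
  have hz : IsPrimitiveRoot (algebraMap (𝓞 K) (𝓞 M) ζ') p :=
    hζ'.map_of_injective (RingOfIntegers.algebraMap.injective K M)
  generalize hzdef : algebraMap (𝓞 K) (𝓞 M) ζ' = z at hz
  generalize hxMdef : algebraMap (𝓞 K) (𝓞 M) x = xM
  -- `α ^ p = u` in `𝓞 M`
  have hαu : α ^ p = algebraMap (𝓞 K) (𝓞 M) u := by
    apply RingOfIntegers.ext
    rw [coe_algebraMap, ← hα]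
    rfl
  -- a prime `Q₀` above `P`
  have := hP
  obtain ⟨Q₀, hQ₀, hQ₀P⟩ := Ideal.exists_ideal_over_prime_of_isIntegral_of_isDomain
    (S := 𝓞 M) P (by rw [RingOfIntegers.ker_algebraMap_eq_bot]; exact bot_le)
  -- `Q₀` contains some `α - z ^ i₀ * x`
  have hprod : ∏ μ ∈ Polynomial.nthRootsFinset p (1 : 𝓞 M), (α - μ * xM) ∈ Q₀ := by
    rw [← hz.pow_sub_pow_eq_prod_sub_mul α xM hp.pos, hαu, ← hxMdef, ← map_pow, ← map_sub,
      ← Ideal.mem_comap, hQ₀P]
    have h := P.neg_mem hx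
    rwa [neg_sub] at h
  obtain ⟨μ, hμ, hμQ⟩ := (Ideal.IsPrime.prod_mem_iff).mp hprod
  have hμ1 : μ ^ p = 1 := (Polynomial.mem_nthRootsFinset hp.pos 1).mp hμ
  obtain ⟨i₀, -, rfl⟩ := hz.eq_pow_of_pow_eq_one hμ1
  -- the conjugates of `Q₀`
  have hσα : ∀ k : ℕ, res (τ ^ k) α = z ^ k * α := by
    intro k
    apply RingOfIntegers.ext
    rw [coe_res, pow_apply_root τ ζ (α : M) hτ k, ← hzdef, ← hζ'coe]
    rfl
  have hQprime : ∀ k : ℕ, (Q₀.comap (res (τ ^ k))).IsPrime := fun k =>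
    Ideal.comap_isPrime (res (τ ^ k)) Q₀
  have hQover : ∀ k : ℕ,
      (Q₀.comap (res (τ ^ k))).comap (algebraMap (𝓞 K) (𝓞 M)) = P := by
    intro k
    rw [Ideal.comap_comap, res_comp_algebraMap, hQ₀P]
  have hQmem : ∀ k : ℕ, α - z ^ (i₀ + k) * xM ∈ Q₀.comap (res (τ ^ k)) := by
    intro k
    rw [Ideal.mem_comap]
    have e : res (τ ^ k) (α - z ^ (i₀ + k) * xM) = z ^ k * (α - z ^ i₀ * xM) := by
      rw [map_sub, map_mul, map_pow, hσα, ← hzdef, ← hxMdef, res_algebraMap, res_algebraMap]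
      ring
    rw [e]
    exact Q₀.mul_mem_left _ hμQ
  -- distinctness
  have key : ∀ k k' : ℕ, k < k' → k' < p →
      Q₀.comap (res (τ ^ k)) ≠ Q₀.comap (res (τ ^ k')) := by
    intro k k' hkk' hk'p hQQ
    have h1 := hQmem k
    have h2 := hQmem k'
    rw [← hQQ] at h2
    have h3 : z ^ (i₀ + k) * (z ^ (k' - k) - 1) * xM ∈ Q₀.comap (res (τ ^ k)) := by
      have e : z ^ (i₀ + k) * (z ^ (k' - k) - 1) * xM
          = (α - z ^ (i₀ + k) * xM) - (α - z ^ (i₀ + k') * xM) := by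
        have e' : i₀ + k' = (i₀ + k) + (k' - k) := by omega
        rw [e', pow_add]
        ring
      rw [e]
      exact Ideal.sub_mem _ h1 h2
    rcases (hQprime k).mem_or_mem h3 with h4 | h4
    · rcases (hQprime k).mem_or_mem h4 with h5 | h5
      · have hu : IsUnit (z ^ (i₀ + k)) := (hz.isUnit hp.ne_zero).pow _
        exact (hQprime k).ne_top (Ideal.eq_top_of_isUnit_mem _ h5 hu)
      · have hm : ζ' ^ (k' - k) - 1 ∈ P := by
          rw [← hQover k, Ideal.mem_comap, map_sub, map_pow, map_one, hzdef]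
          exact h5
        have hcop : (k' - k).Coprime p :=
          (Nat.coprime_of_lt_prime (by omega) (by omega) hp).symm
        exact hPp (natCast_mem_of_sub_one_mem hp.one_lt (hζ'.pow_of_coprime _ hcop) P hm)
    · have hxP : x ∈ P := by
        rw [← hQover k, Ideal.mem_comap, hxMdef]
        exact h4
      apply huP
      have e : u = x ^ p - (x ^ p - u) := by ring
      rw [e]
      exact P.sub_mem (Ideal.pow_mem_of_mem P hxP p hp.pos) hx
  refine ⟨fun i => Q₀.comap (res (τ ^ (i : ℕ))), ?_, fun i => ⟨hQprime i, hQover i⟩⟩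
  intro i j hij
  by_contra hne
  rcases lt_or_gt_of_ne (fun h => hne (Fin.ext h)) with h | h
  · exact key i j h j.2 hij
  · exact key j i h i.2 hij.symm

end Fermat.Agent.S14.Thaine.ZetaBounds
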