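import Fermat.Agent.S14.Thaine.Defs

/-!
# Route T / ZetaBounds: `[M : K]` distinct primes above `P` all have the norm of `P`
(block owner helper20; one worker; statement frozen)

`∑_{Q ∣ P} e(Q|P) f(Q|P) = [M : K]` (`Ideal.sum_ramification_inertia`, primes over `P` =
`(factors (P.map (algebraMap (𝓞 K) (𝓞 M)))).toFinset`, cf. `Ideal.primesOverFinset`), all
`e, f ≥ 1`; with `n = [M : K]` distinct primes over `P` every `e(Q|P) f(Q|P) = 1`, so `f = 1`:
`𝓞 K ⧸ P → 𝓞 M ⧸ Q` is bijective and the two quotients have the same cardinality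
(`Ideal.absNorm_apply`, `Submodule.cardQuot_apply`; or `Ideal.absNorm_eq_pow_inertiaDeg'` over
the rational prime below + `Ideal.inertiaDeg_algebra_tower`).
-/

set_option autoImplicit false

namespace Fermat.Agent.S14.Thaine.ZetaBounds

open NumberField

namespace KummerSplitB

/-- If a sum of positive natural numbers indexed by a finite type equals `n` and there are `n`
distinct indices `Q 0, …, Q (n - 1)`, then the term at each `Q i` is `1`. -/
theorem eq_one_of_sum_eq {ι : Type*} [Fintype ι] (g : ι → ℕ) (hg : ∀ x, 1 ≤ g x) {n : ℕ}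
    (hsum : ∑ x, g x = n) (Q : Fin n → ι) (hQ : Function.Injective Q) (i : Fin n) :
    g (Q i) = 1 := by
  classical
  by_contra h
  have h2 : 1 < g (Q i) := lt_of_le_of_ne (hg (Q i)) (Ne.symm h)
  have h1 : ∑ j : Fin n, g (Q j) ≤ ∑ x, g x := by
    rw [← Finset.sum_image (s := Finset.univ) (f := g) (g := Q) (fun a _ b _ hab => hQ hab)]
    exact Finset.sum_le_sum_of_subset (Finset.subset_univ _)
  have h3 : ∑ _j : Fin n, (1 : ℕ) < ∑ j : Fin n, g (Q j) :=
    Finset.sum_lt_sum (fun j _ => hg (Q j)) ⟨i, Finset.mem_univ i, h2⟩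
  rw [Finset.sum_const, Finset.card_univ, Fintype.card_fin, smul_eq_mul, mul_one] at h3
  omega

end KummerSplitB

theorem absNorm_eq_of_card_primes_above (K M : Type*) [Field K] [NumberField K]
    [Field M] [NumberField M] [Algebra K M] {n : ℕ} (hn : Module.finrank K M = n)
    (P : Ideal (𝓞 K)) (hP : P.IsPrime) (hP0 : P ≠ ⊥)
    (Q : Fin n → Ideal (𝓞 M)) (hQ : Function.Injective Q)
    (hQP : ∀ i, (Q i).IsPrime ∧ (Q i).comap (algebraMap (𝓞 K) (𝓞 M)) = P) (i : Fin n) :
    Ideal.absNorm (Q i) = Ideal.absNorm P := by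
  classical
  have : P.IsMaximal := hP.isMaximal hP0
  have hQprime : ∀ j, (Q j).IsPrime := fun j => (hQP j).1
  have hQover : ∀ j, (Q j).LiesOver P := fun j => ⟨(hQP j).2.symm⟩
  -- the fundamental identity `∑ e f = [M : K]` over the primes above `P`
  have hsum : ∑ q : P.primesOver (𝓞 M),
      q.1.ramificationIdx (𝓞 K) * q.1.inertiaDeg (𝓞 K) = n := by
    rw [Ideal.sum_ramification_inertia_eq_finrank, ← hn]
    exact (IsFractionRing.finrank_eq (𝓞 K) K (𝓞 M) M).symm
  let Q' : Fin n → P.primesOver (𝓞 M) := fun j => ⟨Q j, (hQP j).1, ⟨(hQP j).2.symm⟩⟩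
  have hQ' : Function.Injective Q' := fun a b h => hQ (congrArg Subtype.val h)
  have hpos : ∀ q : P.primesOver (𝓞 M),
      1 ≤ q.1.ramificationIdx (𝓞 K) * q.1.inertiaDeg (𝓞 K) := by
    intro q
    have : q.1.IsPrime := q.2.1
    exact Nat.mul_pos (Ideal.ramificationIdx_pos _ _) (Ideal.inertiaDeg_pos _ _)
  -- `n` distinct primes above `P`: every `e f` equals `1`, in particular `f (Q i | P) = 1`
  have h1 : (Q i).ramificationIdx (𝓞 K) * (Q i).inertiaDeg (𝓞 K) = 1 :=
    KummerSplitB.eq_one_of_sum_eq _ hpos hsum Q' hQ' i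
  have hf : (Q i).inertiaDeg (𝓞 K) = 1 := Nat.eq_one_of_mul_eq_one_left h1
  rw [← Ideal.absNorm_pow_inertiaDeg P (Q i), hf, pow_one]

end Fermat.Agent.S14.Thaine.ZetaBounds
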