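import Fermat.Agent.S14.Thaine.ZetaBounds.Pole
import Fermat.Agent.S14.Thaine.ZetaBounds.EulerReal
import Fermat.Agent.S14.Thaine.ZetaBounds.PrimeBounds
import Fermat.Agent.S14.Thaine.ZetaBounds.KummerField
import Fermat.Agent.S14.Thaine.ZetaBounds.KummerSplitA
import Fermat.Agent.S14.Thaine.ZetaBounds.KummerSplitB

/-!
# Route T / ZetaBounds: (Z5) Kummer splitting + simple pole of `ζ_M`, `M = K(u^{1/p})`
(block owner helper20; one worker; statement frozen)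

`u ≠ 0` (else `u = 0 ^ p`).  Let `m` = number of primes of `K` containing `u`
(`finite_primes_mem`), `M, α, τ` from `exists_kummer_field`, `c` from `tsum_le M`
(`c ≥ s - 1 > 0` since `ζ_M(s) ≥ 1`), `C := p * m + log c` (take `max c 1` if convenient).
Split `T` into `T₁ = {P ∈ T | u ∈ P}` (`p * ∑_{T₁} ≤ p * m`, each term `≤ 1`) and
`T₂ = {P ∈ T | u ∉ P}`.  For `P ∈ T₂`: `exists_primes_above` + `absNorm_eq_of_card_primes_above`
(`finrank K M = p`) give `p` distinct primes `Q_{P,i}` of `M` over `P` with `N Q = N P`;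
`(P, i) ↦ Q_{P,i}` is injective on `T₂ × Fin p` (`comap` recovers `P`).  With `T'` the set of these
primes of `M` (as `HeightOneSpectrum (𝓞 M)`; nonzero since the norm is a prime number):
`p * ∑_{T₂} N(P)^(-s) = ∑_{T'} N(Q)^(-s) ≤ ∑_{T'} -log (1 - N(Q)^(-s))`
`= log ∏_{T'} (1 - N(Q)^(-s))⁻¹ ≤ log ζ_M(s) ≤ log (c / (s-1)) = log (1/(s-1)) + log c`
(`prod_le_tsum` for `M`; `x ≤ -log (1 - x)` for `0 ≤ x < 1`).
-/

set_option autoImplicit false

namespace Fermat.Agent.S14.Thaine.ZetaBounds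

open NumberField IsDedekindDomain
open scoped nonZeroDivisors

namespace Z5

/-- `exp x ≤ (1 - x)⁻¹` for `x < 1`. -/
theorem exp_le_inv_one_sub {x : ℝ} (hx : x < 1) : Real.exp x ≤ (1 - x)⁻¹ := by
  have h1 : 1 - x ≤ Real.exp (-x) := by
    have := Real.add_one_le_exp (-x)
    linarith
  have h2 : 0 < 1 - x := by linarith
  calc Real.exp x = (Real.exp (-x))⁻¹ := by rw [Real.exp_neg, inv_inv]
    _ ≤ (1 - x)⁻¹ := inv_anti₀ h2 h1

/-- A nonzero prime ideal of `𝓞 M` has norm `> 1`. -/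
theorem one_lt_absNorm (M : Type*) [Field M] [NumberField M] (Q : HeightOneSpectrum (𝓞 M)) :
    1 < Ideal.absNorm Q.asIdeal := by
  have h0 : Ideal.absNorm Q.asIdeal ≠ 0 := by
    rw [Ne, Ideal.absNorm_eq_zero_iff]
    exact Q.ne_bot
  have h1 : Ideal.absNorm Q.asIdeal ≠ 1 := by
    rw [Ne, Ideal.absNorm_eq_one_iff]
    exact Q.isPrime.ne_top
  omega

/-- `exp (∑_{Q ∈ T'} N(Q)^(-s)) ≤ ζ_M(s)`. -/
theorem exp_sum_le_tsum (M : Type*) [Field M] [NumberField M] {s : ℝ} (hs : 1 < s)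
    (T' : Finset (HeightOneSpectrum (𝓞 M))) :
    Real.exp (∑ Q ∈ T', ((Ideal.absNorm Q.asIdeal : ℝ)) ^ (-s)) ≤
      ∑' I : (Ideal (𝓞 M))⁰, ((Ideal.absNorm (I : Ideal (𝓞 M)) : ℝ)) ^ (-s) := by
  rw [Real.exp_sum]
  refine le_trans (Finset.prod_le_prod (fun _ _ => (Real.exp_pos _).le) (fun Q _ => ?_))
    (prod_le_tsum M hs T')
  apply exp_le_inv_one_sub
  apply Real.rpow_lt_one_of_one_lt_of_neg
  · exact_mod_cast one_lt_absNorm M Q
  · linarith

/-- The primes containing `u` contribute at most their number. -/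
theorem sum_T1_le (K : Type*) [Field K] [NumberField K] (u : 𝓞 K)
    (hfin : {v : HeightOneSpectrum (𝓞 K) | u ∈ v.asIdeal}.Finite) {s : ℝ} (hs : 0 ≤ s)
    (T₁ : Finset (Ideal (𝓞 K)))
    (hT₁ : ∀ P ∈ T₁, P.IsPrime ∧ (Ideal.absNorm P).Prime ∧ u ∈ P) :
    ∑ P ∈ T₁, ((Ideal.absNorm P : ℝ)) ^ (-s) ≤ (hfin.toFinset.card : ℝ) := by
  classical
  have hsub : T₁ ⊆ hfin.toFinset.image (fun v => v.asIdeal) := by
    intro P hP
    obtain ⟨h1, h2, h3⟩ := hT₁ P hP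
    have h0 : P ≠ ⊥ := by
      rintro rfl
      rw [Ideal.absNorm_bot] at h2
      exact Nat.not_prime_zero h2
    rw [Finset.mem_image]
    exact ⟨⟨P, h1, h0⟩, by simpa using h3, rfl⟩
  calc ∑ P ∈ T₁, ((Ideal.absNorm P : ℝ)) ^ (-s) ≤ ∑ _P ∈ T₁, (1 : ℝ) := by
        apply Finset.sum_le_sum
        intro P hP
        apply Real.rpow_le_one_of_one_le_of_nonpos
        · exact_mod_cast (hT₁ P hP).2.1.one_lt.le
        · linarith
    _ = (T₁.card : ℝ) := by simp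
    _ ≤ ((hfin.toFinset.image (fun v => v.asIdeal)).card : ℝ) := by
        exact_mod_cast Finset.card_le_card hsub
    _ ≤ (hfin.toFinset.card : ℝ) := by exact_mod_cast Finset.card_image_le

/-- The primes not containing `u`: each has `p` primes of the same norm above it. -/
theorem exp_sum_T2_le (K M : Type*) [Field K] [NumberField K] [Field M] [NumberField M]
    [Algebra K M] {p : ℕ} {s : ℝ} (hs : 1 < s) (T₂ : Finset (Ideal (𝓞 K)))
    (h : ∀ P ∈ T₂, ∃ Q : Fin p → HeightOneSpectrum (𝓞 M), Function.Injective Q ∧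
      ∀ i, (Q i).asIdeal.comap (algebraMap (𝓞 K) (𝓞 M)) = P ∧
        Ideal.absNorm (Q i).asIdeal = Ideal.absNorm P) :
    Real.exp ((p : ℝ) * ∑ P ∈ T₂, ((Ideal.absNorm P : ℝ)) ^ (-s)) ≤
      ∑' I : (Ideal (𝓞 M))⁰, ((Ideal.absNorm (I : Ideal (𝓞 M)) : ℝ)) ^ (-s) := by
  classical
  choose Qf hinj hQf using h
  have hinjOn : Set.InjOn (fun x : {P // P ∈ T₂} × Fin p => Qf x.1.1 x.1.2 x.2)
      ((T₂.attach ×ˢ (Finset.univ : Finset (Fin p)) : Finset ({P // P ∈ T₂} × Fin p)) :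
        Set ({P // P ∈ T₂} × Fin p)) := by
    rintro ⟨⟨P, hP⟩, i⟩ - ⟨⟨P', hP'⟩, i'⟩ - heq
    simp only at heq
    have hPP' : P = P' := by
      rw [← (hQf P hP i).1, ← (hQf P' hP' i').1, heq]
    subst hPP'
    have hii' : i = i' := hinj P hP heq
    subst hii'
    rfl
  have hsum : ∑ Q ∈ (T₂.attach ×ˢ (Finset.univ : Finset (Fin p))).image
        (fun x => Qf x.1.1 x.1.2 x.2), ((Ideal.absNorm Q.asIdeal : ℝ)) ^ (-s) =
      (p : ℝ) * ∑ P ∈ T₂, ((Ideal.absNorm P : ℝ)) ^ (-s) := by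
    rw [Finset.sum_image hinjOn, Finset.sum_product, Finset.mul_sum, ← Finset.sum_attach T₂]
    refine Finset.sum_congr rfl (fun P _ => ?_)
    simp only [(hQf P.1 P.2 _).2, Finset.sum_const, Finset.card_univ, Fintype.card_fin,
      nsmul_eq_mul]
  rw [← hsum]
  exact exp_sum_le_tsum M hs _

/-- The `p` primes of `M` above a prime `P` of `K` not containing `u`, as height-one primes. -/
theorem exists_height_one_above {p : ℕ} [Fact p.Prime] (K M : Type*) [Field K] [NumberField K]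
    [Field M] [NumberField M] [Algebra K M]
    (ζ : K) (hζ : IsPrimitiveRoot ζ p) (u : 𝓞 K) (α : 𝓞 M)
    (hα : (α : M) ^ p = algebraMap K M (u : K))
    (τ : M ≃ₐ[K] M) (hτ : τ (α : M) = algebraMap K M ζ * (α : M))
    (hfr : Module.finrank K M = p)
    (P : Ideal (𝓞 K)) (hP : P.IsPrime) (hN : (Ideal.absNorm P).Prime)
    (hPp : ((p : ℕ) : 𝓞 K) ∉ P) (huP : u ∉ P) (hx : ∃ x : 𝓞 K, x ^ p - u ∈ P) :
    ∃ Q : Fin p → HeightOneSpectrum (𝓞 M), Function.Injective Q ∧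
      ∀ i, (Q i).asIdeal.comap (algebraMap (𝓞 K) (𝓞 M)) = P ∧
        Ideal.absNorm (Q i).asIdeal = Ideal.absNorm P := by
  have hP0 : P ≠ ⊥ := by
    rintro rfl
    rw [Ideal.absNorm_bot] at hN
    exact Nat.not_prime_zero hN
  obtain ⟨x, hx⟩ := hx
  obtain ⟨Q, hQinj, hQ⟩ := exists_primes_above K M ζ hζ u α hα τ hτ P hP hP0 hPp huP x hx
  have hnorm : ∀ i, Ideal.absNorm (Q i) = Ideal.absNorm P := fun i =>
    absNorm_eq_of_card_primes_above K M hfr P hP hP0 Q hQinj hQ i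
  have hQ0 : ∀ i, Q i ≠ ⊥ := by
    intro i h0
    have h1 := hnorm i
    rw [h0, Ideal.absNorm_bot] at h1
    rw [← h1] at hN
    exact Nat.not_prime_zero hN
  refine ⟨fun i => ⟨Q i, (hQ i).1, hQ0 i⟩, ?_, fun i => ⟨(hQ i).2, hnorm i⟩⟩
  intro i j hij
  exact hQinj (congrArg HeightOneSpectrum.asIdeal hij)

end Z5

/-- (Z5) -/
theorem kummer_split_primes_sum_le {p : ℕ} [Fact p.Prime] (K : Type*) [Field K] [NumberField K]
    (ζ : K) (hζ : IsPrimitiveRoot ζ p) (u : 𝓞 K) (hu : ¬ ∃ x : K, (u : K) = x ^ p) :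
    ∃ C : ℝ, ∀ s : ℝ, 1 < s → s ≤ 2 →
      ∀ T : Finset (Ideal (𝓞 K)),
        (∀ P ∈ T, P.IsPrime ∧ (Ideal.absNorm P).Prime ∧ ((p : ℕ) : 𝓞 K) ∉ P ∧
          ∃ x : 𝓞 K, x ^ p - u ∈ P) →
        (p : ℝ) * ∑ P ∈ T, ((Ideal.absNorm P : ℝ)) ^ (-s) ≤ Real.log (1 / (s - 1)) + C := by
  classical
  have hp : p.Prime := Fact.out
  have hu0 : u ≠ 0 := by
    rintro rfl
    exact hu ⟨0, by simp [hp.ne_zero]⟩
  have hfin := finite_primes_mem K u hu0
  obtain ⟨M, _, _, _, α, τ, hfr, hα, hτ⟩ := exists_kummer_field K ζ hζ u hu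
  obtain ⟨c, hc⟩ := tsum_le M
  refine ⟨(p : ℝ) * (hfin.toFinset.card : ℝ) + Real.log c, ?_⟩
  intro s hs1 hs2 T hT
  have hsplit : ∑ P ∈ T, ((Ideal.absNorm P : ℝ)) ^ (-s) =
      ∑ P ∈ T.filter (fun P => u ∈ P), ((Ideal.absNorm P : ℝ)) ^ (-s) +
        ∑ P ∈ T.filter (fun P => ¬ u ∈ P), ((Ideal.absNorm P : ℝ)) ^ (-s) :=
    (Finset.sum_filter_add_sum_filter_not T _ _).symm
  have h1 : ∑ P ∈ T.filter (fun P => u ∈ P), ((Ideal.absNorm P : ℝ)) ^ (-s) ≤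
      (hfin.toFinset.card : ℝ) := by
    refine Z5.sum_T1_le K u hfin (by linarith) _ (fun P hP => ?_)
    rw [Finset.mem_filter] at hP
    exact ⟨(hT P hP.1).1, (hT P hP.1).2.1, hP.2⟩
  have h2 : Real.exp ((p : ℝ) *
      ∑ P ∈ T.filter (fun P => ¬ u ∈ P), ((Ideal.absNorm P : ℝ)) ^ (-s)) ≤
      ∑' I : (Ideal (𝓞 M))⁰, ((Ideal.absNorm (I : Ideal (𝓞 M)) : ℝ)) ^ (-s) := by
    refine Z5.exp_sum_T2_le K M hs1 _ (fun P hP => ?_)
    rw [Finset.mem_filter] at hP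
    obtain ⟨hPT, huP⟩ := hP
    obtain ⟨hPprime, hN, hPp, hx⟩ := hT P hPT
    exact Z5.exists_height_one_above K M ζ hζ u α hα τ hτ hfr P hPprime hN hPp huP hx
  have h3 := hc s hs1 hs2
  have hs0 : 0 < s - 1 := by linarith
  have hpos : 0 < c / (s - 1) := lt_of_lt_of_le (Real.exp_pos _) (h2.trans h3)
  have hcpos : 0 < c := by
    by_contra hneg
    exact absurd hpos (not_lt.mpr (div_nonpos_of_nonpos_of_nonneg (not_lt.mp hneg) hs0.le))
  have h4 : (p : ℝ) * ∑ P ∈ T.filter (fun P => ¬ u ∈ P), ((Ideal.absNorm P : ℝ)) ^ (-s) ≤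
      Real.log (c / (s - 1)) := (Real.le_log_iff_exp_le hpos).mpr (h2.trans h3)
  have h5 : Real.log (c / (s - 1)) = Real.log (1 / (s - 1)) + Real.log c := by
    rw [Real.log_div hcpos.ne' hs0.ne', one_div, Real.log_inv]
    ring
  have h6 : (p : ℝ) * ∑ P ∈ T.filter (fun P => u ∈ P), ((Ideal.absNorm P : ℝ)) ^ (-s) ≤
      (p : ℝ) * (hfin.toFinset.card : ℝ) := mul_le_mul_of_nonneg_left h1 (Nat.cast_nonneg p)
  rw [hsplit, mul_add]
  linarith

end Fermat.Agent.S14.Thaine.ZetaBounds
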