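import Fermat.Agent.S14.Thaine.Defs

/-!
# Route T / ZetaBounds: convergence of `∑_I N(I)^(-s)` and the link with Mathlib's Dedekind zeta
(block owner helper20; one worker; statements frozen)

`NumberField.dedekindZeta K s = LSeries (fun n ↦ Nat.card {I : Ideal (𝓞 K) // absNorm I = n}) s`.
Regroup the sum over nonzero ideals by the value of the norm (fibres are finite:
`Ideal.finite_setOf_absNorm_eq`; e.g. `Equiv.sigmaFiberEquiv` + `summable_sigma_of_nonneg` /
`tsum_sigma'`).  Summability of the L-series for real `s > 1`: as inside the Mathlib proof of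
`NumberField.tendsto_sub_one_mul_dedekindZeta_nhdsGT` (file
`Mathlib/NumberTheory/NumberField/DedekindZeta.lean`), via
`LSeriesSummable_of_sum_norm_bigO_and_nonneg` and `isBigO_atTop_natCast_rpow_of_tendsto_div_rpow`.
The `n = 0` coefficient (the zero ideal) is ignored by `LSeries`; no nonzero ideal has norm `0`.
-/

set_option autoImplicit false

namespace Fermat.Agent.S14.Thaine.ZetaBounds

open NumberField Filter Topology
open scoped nonZeroDivisors

namespace Bridge

variable (K : Type*) [Field K] [NumberField K]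

/-- The number of integral ideals of norm `n` (the coefficients of the Dedekind zeta function). -/
noncomputable def cnt (n : ℕ) : ℕ := Nat.card {I : Ideal (𝓞 K) // Ideal.absNorm I = n}

/-- The norm of a nonzero integral ideal. -/
noncomputable def nrm (I : (Ideal (𝓞 K))⁰) : ℕ := Ideal.absNorm (I : Ideal (𝓞 K))

/-- The `n`-th term of the Dedekind zeta series at a real point. -/
noncomputable def rterm (s : ℝ) (n : ℕ) : ℝ :=
  if n = 0 then 0 else (cnt K n : ℝ) * (n : ℝ) ^ (-s)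

theorem dedekindZeta_eq (s : ℂ) : dedekindZeta K s = LSeries (fun n ↦ (cnt K n : ℂ)) s := rfl

/-- The counting function of ideals is asymptotically linear (extracted from the Mathlib proof of
`NumberField.tendsto_sub_one_mul_dedekindZeta_nhdsGT`). -/
theorem tendsto_sum_cnt_div :
    Tendsto (fun n : ℕ ↦ (∑ k ∈ Finset.Icc 1 n, (cnt K k : ℝ)) / (n : ℝ)) atTop
      (𝓝 (dedekindZeta_residue K)) := by
  unfold cnt
  refine ((Ideal.tendsto_norm_le_div_atTop₀ K).comp tendsto_natCast_atTop_atTop).congr fun n ↦ ?_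
  simp only [Function.comp_apply, Nat.cast_le, ← Nat.cast_sum]
  congr
  rw [← add_left_inj 1, ← Ideal.card_norm_le_eq_card_norm_le_add_one,
    show Finset.Icc 1 n = Finset.Ioc 0 n from Finset.Icc_succ_left_eq_Ioc _ _,
    show 1 = Nat.card {I : Ideal (𝓞 K) // Ideal.absNorm I = 0} by
      simp [Ideal.absNorm_eq_zero_iff],
    Finset.sum_Ioc_add_eq_sum_Icc (n.zero_le),
    ← Finset.card_preimage_eq_sum_card_image_eq
      (fun k _ ↦ Ideal.finite_setOfPred_absNorm_eq k)]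
  simp [Set.coe_eq_subtype]

theorem lseriesSummable_cnt {s : ℝ} (hs : 1 < s) :
    LSeriesSummable (fun n ↦ (cnt K n : ℂ)) (s : ℂ) := by
  have hO : (fun n ↦ ∑ k ∈ Finset.Icc 1 n, (cnt K k : ℝ)) =O[atTop] fun n ↦ (n : ℝ) ^ (1 : ℝ) :=
    Asymptotics.isBigO_atTop_natCast_rpow_of_tendsto_div_rpow (a := dedekindZeta_residue K)
      (by simpa using tendsto_sum_cnt_div K)
  exact LSeriesSummable_of_sum_norm_bigO_and_nonneg (f := fun n ↦ (cnt K n : ℝ)) hO
    (fun _ ↦ Nat.cast_nonneg _) zero_le_one (by simpa using hs)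

theorem ofReal_rterm (s : ℝ) (n : ℕ) :
    ((rterm K s n : ℝ) : ℂ) = LSeries.term (fun n ↦ (cnt K n : ℂ)) (s : ℂ) n := by
  rcases eq_or_ne n 0 with rfl | hn
  · simp [rterm]
  · rw [LSeries.term_of_ne_zero hn, rterm, if_neg hn, Complex.ofReal_mul, Complex.ofReal_natCast,
      Complex.ofReal_cpow (Nat.cast_nonneg n), Complex.ofReal_neg, Complex.cpow_neg,
      Complex.ofReal_natCast, div_eq_mul_inv]

theorem summable_rterm {s : ℝ} (hs : 1 < s) : Summable (rterm K s) := by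
  have h : Summable (LSeries.term (fun n ↦ (cnt K n : ℂ)) (s : ℂ)) := lseriesSummable_cnt K hs
  have h' : Summable (fun n ↦ ((rterm K s n : ℝ) : ℂ)) :=
    h.congr (fun n ↦ (ofReal_rterm K s n).symm)
  exact Complex.summable_ofReal.mp h'

theorem tsum_rterm (s : ℝ) : ((∑' n, rterm K s n : ℝ) : ℂ) = dedekindZeta K (s : ℂ) := by
  rw [Complex.ofReal_tsum, dedekindZeta_eq, LSeries]
  exact tsum_congr (ofReal_rterm K s)

theorem finite_fibre (n : ℕ) : Finite {I : (Ideal (𝓞 K))⁰ // nrm K I = n} :=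
  ((Ideal.finite_setOfPred_absNorm_le₀ (S := 𝓞 K) n).subset
    (fun I (hI : nrm K I = n) => (le_of_eq hI : Ideal.absNorm (I : Ideal (𝓞 K)) ≤ n))).to_subtype

theorem card_fibre_zero : Nat.card {I : (Ideal (𝓞 K))⁰ // nrm K I = 0} = 0 := by
  have : IsEmpty {I : (Ideal (𝓞 K))⁰ // nrm K I = 0} := by
    refine ⟨fun I => ?_⟩
    have h0 : Ideal.absNorm (I.1 : Ideal (𝓞 K)) = 0 := I.2
    rw [Ideal.absNorm_eq_zero_iff] at h0
    exact nonZeroDivisors.coe_ne_zero I.1 h0
  exact Nat.card_of_isEmpty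

theorem card_fibre {n : ℕ} (hn : n ≠ 0) :
    Nat.card {I : (Ideal (𝓞 K))⁰ // nrm K I = n} = cnt K n := by
  refine Nat.card_congr ⟨fun I => ⟨I.1.1, I.2⟩, fun I => ⟨⟨I.1, ?_⟩, I.2⟩, fun I => rfl,
    fun I => rfl⟩
  refine mem_nonZeroDivisors_of_ne_zero ?_
  intro h0
  have h1 : Ideal.absNorm I.1 = n := I.2
  rw [h0, Ideal.zero_eq_bot, Ideal.absNorm_bot] at h1
  exact hn h1.symm

theorem tsum_fibre (s : ℝ) (n : ℕ) :
    ∑' y : {I : (Ideal (𝓞 K))⁰ // nrm K I = n}, ((nrm K y.1 : ℕ) : ℝ) ^ (-s) = rterm K s n := by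
  have h : ∀ y : {I : (Ideal (𝓞 K))⁰ // nrm K I = n},
      ((nrm K y.1 : ℕ) : ℝ) ^ (-s) = (n : ℝ) ^ (-s) := fun y => by rw [y.2]
  rw [tsum_congr h, tsum_const, nsmul_eq_mul, rterm]
  rcases eq_or_ne n 0 with rfl | hn
  · rw [card_fibre_zero, if_pos rfl, Nat.cast_zero, zero_mul]
  · rw [card_fibre K hn, if_neg hn]

/-- Regrouping the sum over nonzero ideals by the value of the norm. -/
theorem hasSum_absNorm_rpow {s : ℝ} (hs : 1 < s) :
    HasSum (fun I : (Ideal (𝓞 K))⁰ => ((Ideal.absNorm (I : Ideal (𝓞 K)) : ℝ)) ^ (-s))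
      (∑' n, rterm K s n) := by
  rw [← (Equiv.sigmaFiberEquiv (nrm K)).hasSum_iff]
  have hnn : ∀ p : (Σ n : ℕ, {I : (Ideal (𝓞 K))⁰ // nrm K I = n}),
      0 ≤ ((fun I : (Ideal (𝓞 K))⁰ => ((Ideal.absNorm (I : Ideal (𝓞 K)) : ℝ)) ^ (-s)) ∘
        (Equiv.sigmaFiberEquiv (nrm K))) p :=
    fun p => Real.rpow_nonneg (Nat.cast_nonneg _) _
  have hsum : Summable ((fun I : (Ideal (𝓞 K))⁰ =>
      ((Ideal.absNorm (I : Ideal (𝓞 K)) : ℝ)) ^ (-s)) ∘ (Equiv.sigmaFiberEquiv (nrm K))) := by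
    rw [summable_sigma_of_nonneg hnn]
    refine ⟨fun n => ?_, ?_⟩
    · have := finite_fibre K n
      exact Summable.of_finite
    · exact (summable_rterm K hs).congr (fun n => (tsum_fibre K s n).symm)
  rw [hsum.hasSum_iff, hsum.tsum_sigma]
  exact tsum_congr (tsum_fibre K s)

end Bridge

/-- (Z1) `∑_I N(I)^(-s)` over nonzero integral ideals converges for `s > 1`. -/
theorem summable_absNorm_rpow (K : Type*) [Field K] [NumberField K] {s : ℝ} (hs : 1 < s) :
    Summable (fun I : (Ideal (𝓞 K))⁰ => ((Ideal.absNorm (I : Ideal (𝓞 K)) : ℝ)) ^ (-s)) := by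
  exact (Bridge.hasSum_absNorm_rpow K hs).summable

/-- The sum over nonzero ideals is Mathlib's Dedekind zeta function (real `s > 1`). -/
theorem tsum_absNorm_rpow_eq_dedekindZeta (K : Type*) [Field K] [NumberField K] {s : ℝ}
    (hs : 1 < s) :
    ((∑' I : (Ideal (𝓞 K))⁰, ((Ideal.absNorm (I : Ideal (𝓞 K)) : ℝ)) ^ (-s) : ℝ) : ℂ) =
      dedekindZeta K (s : ℂ) := by
  rw [(Bridge.hasSum_absNorm_rpow K hs).tsum_eq]
  exact Bridge.tsum_rterm K s

/-- Simple pole at `s = 1` (from `NumberField.tendsto_sub_one_mul_dedekindZeta_nhdsGT`). -/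
theorem tendsto_sub_one_mul_tsum (K : Type*) [Field K] [NumberField K] :
    Tendsto (fun s : ℝ => (s - 1) *
        ∑' I : (Ideal (𝓞 K))⁰, ((Ideal.absNorm (I : Ideal (𝓞 K)) : ℝ)) ^ (-s))
      (𝓝[>] 1) (𝓝 (dedekindZeta_residue K)) := by
  have h := NumberField.tendsto_sub_one_mul_dedekindZeta_nhdsGT K
  have h2 := (Complex.continuous_re.tendsto _).comp h
  rw [Complex.ofReal_re] at h2
  refine h2.congr' ?_
  filter_upwards [self_mem_nhdsWithin] with s hs
  rw [Function.comp_apply, ← tsum_absNorm_rpow_eq_dedekindZeta K hs, ← Complex.ofReal_one,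
    ← Complex.ofReal_sub, ← Complex.ofReal_mul, Complex.ofReal_re]

end Fermat.Agent.S14.Thaine.ZetaBounds
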