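import Fermat.Agent.S14.Thaine.Defs

/-!
# Route T / ZetaBounds: unique factorisation of nonzero ideals at one prime
(block owner helper20; one worker; statements frozen)

`Ideal (𝓞 K)` is a `UniqueFactorizationMonoid` (Dedekind domain) and `v.asIdeal` is prime
(`v.prime`), nonzero (`v.ne_bot`), not a unit.  Tools: `multiplicity`, `FiniteMultiplicity`
(`FiniteMultiplicity.of_not_isUnit`/`multiplicity.finite_prime_left`-type lemmas),
`multiplicity.exists_eq_pow_mul_and_not_dvd`, `Prime.dvd_mul`, `Prime.dvd_of_dvd_pow`,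
`Ideal.dvd_iff_le`, `Ideal.exists_le_maximal`, `IsDedekindDomain.HeightOneSpectrum` is the set of
nonzero primes (`Ideal.IsMaximal.isPrime`; `𝓞 K` is not a field).  Coercions: a product in the
submonoid `(Ideal (𝓞 K))⁰` coerces to the product of ideals (`Submonoid.coe_mul`,
`SubmonoidClass.coe_pow`).  Two different height-one primes are not comparable, so
`w.asIdeal ∣ v.asIdeal ^ k` is impossible for `w ≠ v` (`HeightOneSpectrum.ext`,
maximality of nonzero primes: `Ideal.IsPrime.isMaximal`).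
-/

set_option autoImplicit false

namespace Fermat.Agent.S14.Thaine.ZetaBounds

open NumberField IsDedekindDomain
open scoped nonZeroDivisors

namespace EulerFactor

/-- The ideal underlying `primeNZD K v ^ k * J`. -/
theorem coe_pow_mul (K : Type*) [Field K] [NumberField K] (v : HeightOneSpectrum (𝓞 K)) (k : ℕ)
    (J : (Ideal (𝓞 K))⁰) :
    ((primeNZD K v ^ k * J : (Ideal (𝓞 K))⁰) : Ideal (𝓞 K)) =
      v.asIdeal ^ k * (J : Ideal (𝓞 K)) := by
  rw [Submonoid.coe_mul, SubmonoidClass.coe_pow]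
  rfl

/-- Uniqueness of the decomposition `P ^ k * J` (`P ∤ J`) in a cancellative commutative monoid
with zero, under the normalisation `k ≤ l`. -/
theorem pow_mul_eq_aux {M : Type*} [CommMonoidWithZero M] [IsCancelMulZero M] {P : M}
    (hP : P ≠ 0) {k l : ℕ} {J J' : M} (hJ : ¬ P ∣ J) (hkl : k ≤ l)
    (h : P ^ k * J = P ^ l * J') : k = l ∧ J = J' := by
  obtain ⟨d, rfl⟩ := Nat.exists_eq_add_of_le hkl
  rw [pow_add, mul_assoc] at h
  have h' : J = P ^ d * J' := mul_left_cancel₀ (pow_ne_zero k hP) h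
  rcases Nat.eq_zero_or_pos d with hd | hd
  · subst hd
    rw [pow_zero, one_mul] at h'
    exact ⟨rfl, h'⟩
  · exfalso
    apply hJ
    rw [h']
    exact Dvd.dvd.mul_right (dvd_pow_self P hd.ne') J'

theorem injective_pow_mul (K : Type*) [Field K] [NumberField K] (v : HeightOneSpectrum (𝓞 K)) :
    Function.Injective
      (fun x : ℕ × {J : (Ideal (𝓞 K))⁰ // ¬ v.asIdeal ∣ (J : Ideal (𝓞 K))} =>
        primeNZD K v ^ x.1 * (x.2 : (Ideal (𝓞 K))⁰)) := by
  rintro ⟨k, J, hJ⟩ ⟨l, J', hJ'⟩ h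
  have hP : v.asIdeal ≠ 0 := v.ne_bot
  have h' : v.asIdeal ^ k * (J : Ideal (𝓞 K)) = v.asIdeal ^ l * (J' : Ideal (𝓞 K)) := by
    have h1 := congrArg (fun I : (Ideal (𝓞 K))⁰ => (I : Ideal (𝓞 K))) h
    simpa only [coe_pow_mul] using h1
  rcases le_total k l with hkl | hkl
  · obtain ⟨rfl, hJJ⟩ := pow_mul_eq_aux hP hJ hkl h'
    have h2 : J = J' := Subtype.ext hJJ
    subst h2
    rfl
  · obtain ⟨rfl, hJJ⟩ := pow_mul_eq_aux hP hJ' hkl h'.symm
    have h2 : J' = J := Subtype.ext hJJ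
    subst h2
    rfl

theorem surjective_pow_mul (K : Type*) [Field K] [NumberField K] (v : HeightOneSpectrum (𝓞 K)) :
    Function.Surjective
      (fun x : ℕ × {J : (Ideal (𝓞 K))⁰ // ¬ v.asIdeal ∣ (J : Ideal (𝓞 K))} =>
        primeNZD K v ^ x.1 * (x.2 : (Ideal (𝓞 K))⁰)) := by
  intro I
  have hI : (I : Ideal (𝓞 K)) ≠ 0 := nonZeroDivisors.coe_ne_zero I
  obtain ⟨n, J, hJ, hIJ⟩ := WfDvdMonoid.max_power_factor hI v.irreducible
  have hJ0 : J ≠ 0 := by
    rintro rfl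
    rw [mul_zero] at hIJ
    exact hI hIJ
  refine ⟨(n, ⟨⟨J, mem_nonZeroDivisors_of_ne_zero hJ0⟩, hJ⟩), ?_⟩
  apply Subtype.ext
  show ((primeNZD K v ^ n * (⟨J, mem_nonZeroDivisors_of_ne_zero hJ0⟩ : (Ideal (𝓞 K))⁰) :
    (Ideal (𝓞 K))⁰) : Ideal (𝓞 K)) = (I : Ideal (𝓞 K))
  rw [coe_pow_mul]
  exact hIJ.symm

end EulerFactor

/-- Every nonzero ideal is uniquely `v ^ k * J` with `J` prime to `v`. -/
theorem bijective_pow_mul (K : Type*) [Field K] [NumberField K] (v : HeightOneSpectrum (𝓞 K)) :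
    Function.Bijective
      (fun x : ℕ × {J : (Ideal (𝓞 K))⁰ // ¬ v.asIdeal ∣ (J : Ideal (𝓞 K))} =>
        primeNZD K v ^ x.1 * (x.2 : (Ideal (𝓞 K))⁰)) := by
  exact ⟨EulerFactor.injective_pow_mul K v, EulerFactor.surjective_pow_mul K v⟩

/-- A nonzero ideal different from `1 = ⊤` is divisible by some prime. -/
theorem exists_prime_dvd (K : Type*) [Field K] [NumberField K] (I : (Ideal (𝓞 K))⁰)
    (hI : I ≠ 1) : ∃ v : HeightOneSpectrum (𝓞 K), v.asIdeal ∣ (I : Ideal (𝓞 K)) := by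
  have hI0 : (I : Ideal (𝓞 K)) ≠ ⊥ := nonZeroDivisors.coe_ne_zero I
  have hItop : (I : Ideal (𝓞 K)) ≠ ⊤ := by
    intro h
    apply hI
    apply Subtype.ext
    rw [h]
    exact Ideal.one_eq_top.symm
  obtain ⟨M, hM, hIM⟩ := Ideal.exists_le_maximal _ hItop
  have hM0 : M ≠ ⊥ := by
    rintro rfl
    exact hI0 (le_bot_iff.mp hIM)
  exact ⟨⟨M, hM.isPrime, hM0⟩, Ideal.dvd_iff_le.mpr hIM⟩

/-- Divisibility by another prime `w ≠ v` ignores the `v`-part. -/
theorem dvd_pow_mul_iff (K : Type*) [Field K] [NumberField K] {v w : HeightOneSpectrum (𝓞 K)}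
    (hvw : w ≠ v) (k : ℕ) (J : (Ideal (𝓞 K))⁰) :
    w.asIdeal ∣ ((primeNZD K v ^ k * J : (Ideal (𝓞 K))⁰) : Ideal (𝓞 K)) ↔
      w.asIdeal ∣ (J : Ideal (𝓞 K)) := by
  rw [EulerFactor.coe_pow_mul]
  constructor
  · intro h
    rcases w.prime.dvd_or_dvd h with h1 | h1
    · exfalso
      have h2 : w.asIdeal ∣ v.asIdeal := w.prime.dvd_of_dvd_pow h1
      have h3 : v.asIdeal ≤ w.asIdeal := Ideal.dvd_iff_le.mp h2
      have h4 : v.asIdeal = w.asIdeal := v.isMaximal.eq_of_le w.isPrime.ne_top h3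
      exact hvw (HeightOneSpectrum.ext h4.symm)
    · exact h1
  · intro h
    exact Dvd.dvd.mul_left h _

end Fermat.Agent.S14.Thaine.ZetaBounds
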