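import Fermat.Agent.S14.Thaine.Defs

/-!
# Route T / ZetaBounds: `p` distinct primes of `K(u^{1/p})` above a prime `P` with `u ≡ x^p mod P`
(block owner helper20; HEDGE copy of KummerSplitA.lean for a second independent worker;
statement frozen)

`α ^ p = u`, `τ α = ζ α`.  In `𝓞 M`: `∏_{i<p} (α - x ζ^i) = α^p - x^p = u - x^p ∈ P 𝓞_M`
(`IsPrimitiveRoot.pow_sub_pow_eq_prod_sub_mul`-type identity, or `X ^ p - C = ∏ (X - ζ^i • ..)`).
Take a prime `Q₀` of `𝓞 M` above `P` (exists: `Ideal.exists_ideal_over_prime_of_isIntegral` /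
`Ideal.exists_ideal_liesOver_maximal_of_isIntegral`); it contains some `α - x ζ^{i₀}`.
Let `τ'` be the automorphism of `𝓞 M` induced by `τ` (`galRestrict` or
`NumberField.RingOfIntegers.mapRingEquiv`), and `Q k := (Q₀).map (τ' ^ k)` (or `comap`).  Then
`Q k` is a prime above `P` (`τ` fixes `K`) containing `ζ^k α - x ζ^{i₀}`, i.e. `α - x ζ^{i₀ - k}`.
If `Q k = Q k'` with `k ≠ k'` (`k, k' < p`) then it contains `x ζ^a (1 - ζ^m)` with
`0 < m < p`, hence `x` (then `x ^ p ∈ P`, so `u ∈ P`: contradiction) or `1 - ζ^m`, which divides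
`p` (`∏_{0<m<p} (1 - ζ^m) = p`; Mathlib: `IsPrimitiveRoot.sub_one_norm_prime`-type facts or
`Polynomial.cyclotomic_prime`/`eval_one_cyclotomic_prime`), so `p ∈ P`: contradiction.
-/

set_option autoImplicit false

namespace Fermat.Agent.S14.Thaine.ZetaBounds

open NumberField

namespace KummerSplitAAlt

variable {R S : Type*} [CommRing R] [CommRing S] [Algebra R S]

/-- The iterates of an `R`-algebra endomorphism `f` with `f a = z a` multiply `a` by powers of
`z`. -/
theorem pow_apply (f : S →ₐ[R] S) (z : R) (a : S) (hfa : f a = algebraMap R S z * a) (k : ℕ) :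
    (f ^ k) a = algebraMap R S z ^ k * a := by
  induction k with
  | zero => rw [pow_zero, pow_zero, AlgHom.one_apply, one_mul]
  | succ k ih =>
    rw [pow_succ', AlgHom.mul_apply, ih, map_mul, map_pow, f.commutes, hfa]
    ring

/-- If `a - z ^ i₀ x ∈ Q₀` then `a - z ^ (i₀ + k) x` lies in the preimage of `Q₀` under `f ^ k`. -/
theorem mem_comap_pow (f : S →ₐ[R] S) (z x : R) (a : S) (hfa : f a = algebraMap R S z * a)
    (Q₀ : Ideal S) (i₀ : ℕ) (h₀ : a - algebraMap R S z ^ i₀ * algebraMap R S x ∈ Q₀) (k : ℕ) :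
    a - algebraMap R S z ^ (i₀ + k) * algebraMap R S x ∈ Ideal.comap (f ^ k) Q₀ := by
  rw [Ideal.mem_comap]
  have h2 : algebraMap R S z ^ (i₀ + k) * algebraMap R S x
      = algebraMap R S (z ^ (i₀ + k) * x) := by
    rw [map_mul, map_pow]
  have h1 : (f ^ k) (a - algebraMap R S z ^ (i₀ + k) * algebraMap R S x)
      = algebraMap R S z ^ k * (a - algebraMap R S z ^ i₀ * algebraMap R S x) := by
    rw [map_sub, h2, (f ^ k).commutes, pow_apply f z a hfa k, map_mul, map_pow]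
    ring
  rw [h1]
  exact Q₀.mul_mem_left _ h₀

/-- The preimage of `Q₀` under an `R`-algebra endomorphism lies over the same ideal of `R`. -/
theorem comap_comap_pow (f : S →ₐ[R] S) (Q₀ : Ideal S) (k : ℕ) :
    (Ideal.comap (f ^ k) Q₀).comap (algebraMap R S) = Q₀.comap (algebraMap R S) := by
  ext w
  rw [Ideal.mem_comap, Ideal.mem_comap, Ideal.mem_comap, (f ^ k).commutes]

/-- A prime ideal containing `ξ - 1` for a primitive `p`-th root of unity `ξ` contains `p`. -/
theorem natCast_mem_of_sub_one_mem {p : ℕ} (hp : p.Prime) [IsDomain S] {ξ : S}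
    (hξ : IsPrimitiveRoot ξ p) (I : Ideal S) (h : ξ - 1 ∈ I) : (p : S) ∈ I := by
  have h1 : Ideal.Quotient.mk I ξ = 1 := by
    rw [← map_one (Ideal.Quotient.mk I)]
    exact Ideal.Quotient.eq.mpr h
  have h2 : Ideal.Quotient.mk I (∑ i ∈ Finset.range p, ξ ^ i) = (p : S ⧸ I) := by
    rw [map_sum]
    simp only [map_pow, h1, one_pow, Finset.sum_const, Finset.card_range, nsmul_eq_mul, mul_one]
  rw [hξ.geom_sum_eq_zero hp.one_lt, map_zero] at h2
  rw [← Ideal.Quotient.eq_zero_iff_mem, map_natCast]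
  exact h2.symm

/-- Two distinct translates `a - z ^ m x`, `a - z ^ (m + d) x` (`0 < d < p`) cannot lie in the same
prime over `P`. -/
theorem not_both_mem {p : ℕ} (hp : p.Prime) [IsDomain S] (z x u : R)
    (hz : IsPrimitiveRoot (algebraMap R S z) p) (a : S)
    (P : Ideal R) (hPp : (p : R) ∉ P) (huP : u ∉ P) (hx : x ^ p - u ∈ P)
    (I : Ideal S) (hI : I.IsPrime) (hIP : I.comap (algebraMap R S) = P) (m d : ℕ)
    (hd0 : 0 < d) (hdp : d < p)
    (h1 : a - algebraMap R S z ^ m * algebraMap R S x ∈ I)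
    (h2 : a - algebraMap R S z ^ (m + d) * algebraMap R S x ∈ I) : False := by
  have h3 : algebraMap R S z ^ m * ((algebraMap R S z ^ d - 1) * algebraMap R S x) ∈ I := by
    have e : algebraMap R S z ^ m * ((algebraMap R S z ^ d - 1) * algebraMap R S x)
        = (a - algebraMap R S z ^ m * algebraMap R S x)
          - (a - algebraMap R S z ^ (m + d) * algebraMap R S x) := by ring
    rw [e]
    exact I.sub_mem h1 h2
  have hZm : algebraMap R S z ^ m ∉ I := by
    intro h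
    have hZ' : algebraMap R S z ∈ I := hI.mem_of_pow_mem m h
    have h1' : (1 : S) ∈ I := by
      rw [← hz.pow_eq_one]
      exact I.pow_mem_of_mem hZ' p hp.pos
    exact hI.ne_top ((Ideal.eq_top_iff_one I).mpr h1')
  rcases hI.mem_or_mem h3 with h | h
  · exact hZm h
  rcases hI.mem_or_mem h with h | h
  · have hξ : IsPrimitiveRoot (algebraMap R S z ^ d) p :=
      hz.pow_of_coprime d (Nat.coprime_of_lt_prime hd0.ne' hdp hp).symm
    have hpI : (p : S) ∈ I := natCast_mem_of_sub_one_mem hp hξ I h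
    apply hPp
    rw [← hIP, Ideal.mem_comap, map_natCast]
    exact hpI
  · have hxP : x ∈ P := by
      rw [← hIP]
      exact h
    apply huP
    have e : u = x ^ p - (x ^ p - u) := by ring
    rw [e]
    exact P.sub_mem (P.pow_mem_of_mem hxP p hp.pos) hx

/-- Abstract form: `p` distinct primes over `P`, obtained from one prime `Q₀` over `P` as the
preimages under the iterates of `f`. -/
theorem abstract {p : ℕ} (hp : p.Prime) [IsDomain S]
    (f : S →ₐ[R] S) (z : R) (hz : IsPrimitiveRoot (algebraMap R S z) p)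
    (a : S) (hfa : f a = algebraMap R S z * a) (u x : R) (ha : a ^ p = algebraMap R S u)
    (P : Ideal R) (hPp : (p : R) ∉ P) (huP : u ∉ P) (hx : x ^ p - u ∈ P)
    (Q₀ : Ideal S) (hQ₀ : Q₀.IsPrime) (hQ₀P : Q₀.comap (algebraMap R S) = P) :
    ∃ Q : Fin p → Ideal S, Function.Injective Q ∧
      ∀ i, (Q i).IsPrime ∧ (Q i).comap (algebraMap R S) = P := by
  have : NeZero p := ⟨hp.ne_zero⟩
  have hprod : ∏ μ ∈ Polynomial.nthRootsFinset p (1 : S), (a - μ * algebraMap R S x) ∈ Q₀ := by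
    rw [← hz.pow_sub_pow_eq_prod_sub_mul a (algebraMap R S x) hp.pos, ha, ← map_pow, ← map_sub]
    have h : u - x ^ p ∈ P := by
      have h' := P.neg_mem hx
      rwa [neg_sub] at h'
    rw [← hQ₀P] at h
    exact h
  obtain ⟨μ, hμ, hμQ⟩ := (Ideal.IsPrime.prod_mem_iff (hp := hQ₀)).mp hprod
  have hμ1 : μ ^ p = 1 := (Polynomial.mem_nthRootsFinset hp.pos 1).mp hμ
  obtain ⟨i₀, -, rfl⟩ := hz.eq_pow_of_pow_eq_one hμ1
  have key : ∀ k k' : ℕ, k < k' → k' < p →
      Ideal.comap (f ^ k) Q₀ ≠ Ideal.comap (f ^ k') Q₀ := by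
    intro k k' hkk' hk'p heq
    have h1 := mem_comap_pow f z x a hfa Q₀ i₀ hμQ k
    have h2 := mem_comap_pow f z x a hfa Q₀ i₀ hμQ k'
    rw [← heq] at h2
    have e : i₀ + k' = (i₀ + k) + (k' - k) := by omega
    rw [e] at h2
    exact not_both_mem hp z x u hz a P hPp huP hx _ (Ideal.comap_isPrime _ _)
      (by rw [comap_comap_pow, hQ₀P]) (i₀ + k) (k' - k) (by omega) (by omega) h1 h2
  refine ⟨fun k => Ideal.comap (f ^ (k : ℕ)) Q₀, ?_, fun k => ⟨Ideal.comap_isPrime _ _, ?_⟩⟩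
  · intro i j hij
    by_contra hne
    rcases lt_or_gt_of_ne (fun h => hne (Fin.ext h)) with h | h
    · exact key _ _ h j.2 hij
    · exact key _ _ h i.2 hij.symm
  · rw [comap_comap_pow, hQ₀P]

end KummerSplitAAlt

theorem exists_primes_above_alt {p : ℕ} [Fact p.Prime] (K M : Type*) [Field K] [NumberField K]
    [Field M] [NumberField M] [Algebra K M]
    (ζ : K) (hζ : IsPrimitiveRoot ζ p) (u : 𝓞 K) (α : 𝓞 M)
    (hα : (α : M) ^ p = algebraMap K M (u : K))
    (τ : M ≃ₐ[K] M) (hτ : τ (α : M) = algebraMap K M ζ * (α : M))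
    (P : Ideal (𝓞 K)) (hP : P.IsPrime) (hP0 : P ≠ ⊥) (hPp : ((p : ℕ) : 𝓞 K) ∉ P) (huP : u ∉ P)
    (x : 𝓞 K) (hx : x ^ p - u ∈ P) :
    ∃ Q : Fin p → Ideal (𝓞 M), Function.Injective Q ∧
      ∀ i, (Q i).IsPrime ∧ (Q i).comap (algebraMap (𝓞 K) (𝓞 M)) = P := by
  have hp : p.Prime := Fact.out
  have : NeZero p := ⟨hp.ne_zero⟩
  have := hP
  have _ := hP0
  obtain ⟨Q₀, -, hQ₀, hQ₀P⟩ := Ideal.exists_ideal_over_prime_of_isIntegral P (⊥ : Ideal (𝓞 M))
    (by
      rw [← RingHom.ker_eq_comap_bot, RingOfIntegers.ker_algebraMap_eq_bot]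
      exact bot_le)
  have hz : IsPrimitiveRoot (algebraMap (𝓞 K) (𝓞 M) hζ.toInteger) p :=
    hζ.toInteger_isPrimitiveRoot.map_of_injective (RingOfIntegers.algebraMap.injective K M)
  have hfa : (RingOfIntegers.mapAlgHom τ : 𝓞 M →ₐ[𝓞 K] 𝓞 M) α
      = algebraMap (𝓞 K) (𝓞 M) hζ.toInteger * α :=
    RingOfIntegers.ext hτ
  have ha : α ^ p = algebraMap (𝓞 K) (𝓞 M) u :=
    RingOfIntegers.ext hα
  exact KummerSplitAAlt.abstract hp (RingOfIntegers.mapAlgHom τ) hζ.toInteger hz α hfa u x ha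
    P hPp huP hx Q₀ hQ₀ hQ₀P

end Fermat.Agent.S14.Thaine.ZetaBounds
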